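import Mathlib

set_option autoImplicit false

namespace Fermat.Agent.Kummer

open NumberField Polynomial

variable {p : ℕ} [hp : Fact p.Prime] {K : Type} [Field K] [NumberField K]
  [IsCyclotomicExtension {p} ℚ K] {ζ : K}

/-- Every `p`-th power in `ℤ[ζ_p]` is congruent to a rational integer modulo `p`. -/
theorem caseII_pow_congr_int (hζ : IsPrimitiveRoot ζ p) (α : 𝓞 K) :
    ∃ n : ℤ, (p : 𝓞 K) ∣ α ^ p - (n : 𝓞 K) := by
  obtain ⟨f, rfl⟩ := hζ.integralPowerBasis.exists_eq_aeval' α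
  rw [hζ.integralPowerBasis_gen]
  induction f using Polynomial.induction_on' with
  | add f g hf hg =>
    obtain ⟨n₁, h₁⟩ := hf
    obtain ⟨n₂, h₂⟩ := hg
    obtain ⟨r, hr⟩ := exists_add_pow_prime_eq hp.out (aeval hζ.toInteger f) (aeval hζ.toInteger g)
    refine ⟨n₁ + n₂, ?_⟩
    rw [map_add, hr]
    push_cast
    have : (aeval hζ.toInteger) f ^ p + (aeval hζ.toInteger) g ^ p +
        ↑p * (aeval hζ.toInteger) f * (aeval hζ.toInteger) g * r - ((n₁ : 𝓞 K) + (n₂ : 𝓞 K)) =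
        ((aeval hζ.toInteger) f ^ p - n₁) + ((aeval hζ.toInteger) g ^ p - n₂) +
          ↑p * ((aeval hζ.toInteger) f * (aeval hζ.toInteger) g * r) := by ring
    rw [this]
    exact dvd_add (dvd_add h₁ h₂) (Dvd.intro _ rfl)
  | monomial n c =>
    refine ⟨c ^ p, ?_⟩
    have hζp : hζ.toInteger ^ p = 1 := hζ.toInteger_isPrimitiveRoot.pow_eq_one
    rw [aeval_monomial, mul_pow, ← pow_mul, mul_comm n p, pow_mul, hζp, one_pow, mul_one]
    simp

/-- In a PID, the members of a pairwise coprime family whose product is (up to a unit) a `k`-th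
power are themselves `k`-th powers up to units. -/
theorem caseII_exists_pow_of_prod {R ι : Type*} [CommRing R] [IsDomain R]
    [IsPrincipalIdealRing R] [DecidableEq ι]
    (s : Finset ι) (f : ι → R) (hf : ∀ i ∈ s, ∀ j ∈ s, i ≠ j → IsCoprime (f i) (f j)) {k : ℕ}
    {z : R} (h : Associated (z ^ k) (∏ i ∈ s, f i)) : ∀ i ∈ s, ∃ d : R, Associated (d ^ k) (f i) := by
  intro i hi
  rw [← Finset.mul_prod_erase s f hi] at h
  refine exists_associated_pow_of_associated_pow_mul ?_ h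
  apply IsCoprime.prod_right
  intro j hj
  rw [Finset.mem_erase] at hj
  exact hf i hi j hj.2 (Ne.symm hj.1)

/-- The quotients `(x + η y) / (ζ - 1)` for distinct `p`-th roots of unity `η` are coprime. -/
theorem caseII_isCoprime_quot (hζ : IsPrimitiveRoot ζ p) {x y : 𝓞 K} (hxy : IsCoprime x y)
    {η₁ η₂ : 𝓞 K} (h₁ : η₁ ∈ nthRootsFinset p (1 : 𝓞 K)) (h₂ : η₂ ∈ nthRootsFinset p (1 : 𝓞 K))
    (hne : η₁ ≠ η₂) {c₁ c₂ : 𝓞 K} (hc₁ : x + η₁ * y = (hζ.toInteger - 1) * c₁)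
    (hc₂ : x + η₂ * y = (hζ.toInteger - 1) * c₂) : IsCoprime c₁ c₂ := by
  have hζ' := hζ.toInteger_isPrimitiveRoot
  have hπ0 : hζ.toInteger - 1 ≠ 0 := hζ.zeta_sub_one_prime'.ne_zero
  obtain ⟨w, hw⟩ := hζ'.nthRootsFinset_pairwise_associated_sub_one_sub_of_prime hp.out h₁ h₂ hne
  obtain ⟨u, v, huv⟩ := hxy
  refine ⟨(w⁻¹ : (𝓞 K)ˣ) * (v - u * η₂), (w⁻¹ : (𝓞 K)ˣ) * (u * η₁ - v), ?_⟩
  have key : (hζ.toInteger - 1) * ((v - u * η₂) * c₁ + (u * η₁ - v) * c₂) =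
      (hζ.toInteger - 1) * w := by
    linear_combination -(v - u * η₂) * hc₁ - (u * η₁ - v) * hc₂ + (η₁ - η₂) * huv - hw
  have key' := mul_left_cancel₀ hπ0 key
  have hinv : ((w⁻¹ : (𝓞 K)ˣ) : 𝓞 K) * w = 1 := by simp
  linear_combination ((w⁻¹ : (𝓞 K)ˣ) : 𝓞 K) * key' + hinv

end Fermat.Agent.Kummer
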