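import Mathlib

set_option autoImplicit false

namespace Fermat.Agent.Kummer

open NumberField Polynomial

variable {p : ℕ} [hp : Fact p.Prime] {K : Type} [Field K] [NumberField K]
  [IsCyclotomicExtension {p} ℚ K] {ζ : K}

theorem caseII_dvd_all (hζ : IsPrimitiveRoot ζ p) (hp2 : p ≠ 2) {x y : 𝓞 K}
    (h : hζ.toInteger - 1 ∣ x ^ p + y ^ p) :
    ∀ η ∈ nthRootsFinset p (1 : 𝓞 K), hζ.toInteger - 1 ∣ x + η * y := by
  have hζ' := hζ.toInteger_isPrimitiveRoot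
  have hπ : Prime (hζ.toInteger - 1) := hζ.zeta_sub_one_prime'
  have hodd : Odd p := hp.out.odd_of_ne_two hp2
  rw [hζ'.pow_add_pow_eq_prod_add_mul x y hodd, hπ.dvd_finsetProd_iff] at h
  obtain ⟨η₁, hη₁, hd⟩ := h
  intro η hη
  have h2 : hζ.toInteger - 1 ∣ η - η₁ := hζ'.sub_one_dvd_sub hp.out hη hη₁
  have : x + η * y = (x + η₁ * y) + (η - η₁) * y := by ring
  rw [this]
  exact dvd_add hd (Dvd.dvd.mul_right h2 y)

theorem caseII_exists_sq_dvd (hζ : IsPrimitiveRoot ζ p) (hp2 : p ≠ 2) {x y : 𝓞 K}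
    (hy : ¬ hζ.toInteger - 1 ∣ y) (h : hζ.toInteger - 1 ∣ x ^ p + y ^ p) :
    ∃ η₀ ∈ nthRootsFinset p (1 : 𝓞 K), (hζ.toInteger - 1) ^ 2 ∣ x + η₀ * y := by
  classical
  have hζ' := hζ.toInteger_isPrimitiveRoot
  have hπ : Prime (hζ.toInteger - 1) := hζ.zeta_sub_one_prime'
  have hall := caseII_dvd_all hζ hp2 h
  have hfin : Finite (𝓞 K ⧸ Ideal.span {hζ.toInteger - 1}) :=
    hζ.finite_quotient_toInteger_sub_one hp.out.one_lt
  have hcard : Nat.card (𝓞 K ⧸ Ideal.span {hζ.toInteger - 1}) = p := by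
    rw [hζ.card_quotient_toInteger_sub_one, hζ.norm_toInteger_sub_one_of_prime_ne_two' hp2]
    simp
  set π := hζ.toInteger - 1 with hπdef
  have hπ0 : π ≠ 0 := hπ.ne_zero
  have hex : ∀ η : nthRootsFinset p (1 : 𝓞 K), ∃ c : 𝓞 K, x + η.1 * y = π * c :=
    fun η => hall η.1 η.2
  choose c hc using hex
  let g : nthRootsFinset p (1 : 𝓞 K) → 𝓞 K ⧸ Ideal.span {π} :=
    fun η => Ideal.Quotient.mk _ (c η)
  have hginj : Function.Injective g := by
    intro η₁ η₂ h12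
    by_contra hne
    have hne' : η₁.1 ≠ η₂.1 := fun h => hne (Subtype.ext h)
    have hd : π ∣ c η₁ - c η₂ := by
      rw [← Ideal.mem_span_singleton, ← Ideal.Quotient.eq]
      exact h12
    obtain ⟨u, hu⟩ := hζ'.nthRootsFinset_pairwise_associated_sub_one_sub_of_prime hp.out
      η₁.2 η₂.2 hne'
    rw [← hπdef] at hu
    have h3 : π * (c η₁ - c η₂) = π * (u * y) := by
      have e1 := hc η₁
      have e2 := hc η₂
      linear_combination e2 - e1 - y * hu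
    have h4 : c η₁ - c η₂ = u * y := mul_left_cancel₀ hπ0 h3
    rw [h4] at hd
    exact hy ((hπ.dvd_or_dvd hd).resolve_left
      (fun h => hπ.not_isUnit (isUnit_of_dvd_unit h u.isUnit)))
  have hbij : Function.Bijective g := by
    apply hginj.bijective_of_nat_card_le
    rw [hcard, Nat.card_eq_fintype_card, Fintype.card_coe, hζ'.card_nthRootsFinset]
  obtain ⟨η₀, hη₀⟩ := hbij.2 0
  refine ⟨η₀.1, η₀.2, ?_⟩
  have hd : π ∣ c η₀ := by
    rw [← Ideal.mem_span_singleton, ← Ideal.Quotient.eq_zero_iff_mem]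
    exact hη₀
  rw [hc η₀, pow_two]
  exact mul_dvd_mul_left π hd

theorem caseII_of_int (hζ : IsPrimitiveRoot ζ p) (_hp2 : p ≠ 2) (a b c : ℤ) (hab : IsCoprime a b)
    (hc0 : c ≠ 0) (hpc : (p : ℤ) ∣ c) (h : a ^ p + b ^ p = c ^ p) :
    ∃ (m : ℕ) (x y z : 𝓞 K) (ε : (𝓞 K)ˣ), 1 ≤ m ∧ IsCoprime x y ∧ ¬ hζ.toInteger - 1 ∣ z ∧
      x ^ p + y ^ p = ε * (hζ.toInteger - 1) ^ (p * m) * z ^ p := by
  have hfm : FiniteMultiplicity (p : ℤ) c := by
    rw [Int.finiteMultiplicity_iff]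
    exact ⟨by simpa using hp.out.ne_one, hc0⟩
  obtain ⟨c0, hc, hc0'⟩ := hfm.exists_eq_pow_mul_and_not_dvd
  set k := multiplicity (p : ℤ) c with hk
  have hk1 : 1 ≤ k := by
    by_contra hlt
    have : k = 0 := by omega
    rw [this, pow_zero, one_mul] at hc
    exact hc0' (hc ▸ hpc)
  obtain ⟨u, hu⟩ := IsCyclotomicExtension.Rat.associated_zeta_sub_one_pow_prime p hζ
  refine ⟨(p - 1) * k, (a : 𝓞 K), (b : 𝓞 K), (c0 : 𝓞 K), u ^ (k * p), ?_, ?_, ?_, ?_⟩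
  · have : 1 ≤ p - 1 := by
      have := hp.out.two_le
      omega
    exact Nat.one_le_iff_ne_zero.mpr (Nat.mul_ne_zero (by omega) (by omega))
  · simpa using IsCoprime.map hab (Int.castRingHom (𝓞 K))
  · rw [IsCyclotomicExtension.Rat.zeta_sub_one_dvd_intCast_iff' p hζ]
    exact hc0'
  · have h1 : ((a : 𝓞 K)) ^ p + (b : 𝓞 K) ^ p = (c : 𝓞 K) ^ p := by exact_mod_cast congrArg (Int.cast : ℤ → 𝓞 K) h
    rw [h1, hc]
    push_cast
    rw [← hu]
    ring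

end Fermat.Agent.Kummer
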