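import Mathlib
import Fermat.Agent.Kummer.Defs
import Fermat.Agent.Kummer.CaseIIStep1
import Fermat.Agent.Kummer.CaseIIPow

set_option autoImplicit false

namespace Fermat.Agent.Kummer

open NumberField Polynomial

variable {p : ℕ} [hp : Fact p.Prime] {K : Type} [Field K] [NumberField K]
  [IsCyclotomicExtension {p} ℚ K] {ζ : K}

/-- The generalized case II equation `x ^ p + y ^ p = ε * (ζ - 1) ^ (p * m) * z ^ p`. -/
def CaseIISol (hζ : IsPrimitiveRoot ζ p) (m : ℕ) : Prop :=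
  ∃ (x y z : 𝓞 K) (ε : (𝓞 K)ˣ), IsCoprime x y ∧ ¬ hζ.toInteger - 1 ∣ z ∧
    x ^ p + y ^ p = ε * (hζ.toInteger - 1) ^ (p * m) * z ^ p

/-- First half of the descent: the factorization data. -/
theorem caseII_factor (hζ : IsPrimitiveRoot ζ p) (hp2 : p ≠ 2) {m : ℕ} (hm : 1 ≤ m)
    {x y z : 𝓞 K} {ε : (𝓞 K)ˣ} (hxy : IsCoprime x y) (hz : ¬ hζ.toInteger - 1 ∣ z)
    (heq : x ^ p + y ^ p = ε * (hζ.toInteger - 1) ^ (p * m) * z ^ p) :
    2 ≤ m ∧ ∃ (η₀ : 𝓞 K) (f : 𝓞 K → 𝓞 K), η₀ ∈ nthRootsFinset p (1 : 𝓞 K) ∧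
      (x + η₀ * y = (hζ.toInteger - 1) ^ (p * (m - 1) + 1) * f η₀) ∧
      (∀ η ∈ nthRootsFinset p (1 : 𝓞 K), η ≠ η₀ → x + η * y = (hζ.toInteger - 1) * f η) ∧
      (∀ η ∈ nthRootsFinset p (1 : 𝓞 K), ¬ hζ.toInteger - 1 ∣ f η) ∧
      (∀ η₁ ∈ nthRootsFinset p (1 : 𝓞 K), ∀ η₂ ∈ nthRootsFinset p (1 : 𝓞 K), η₁ ≠ η₂ →
        IsCoprime (f η₁) (f η₂)) ∧
      (∏ η ∈ nthRootsFinset p (1 : 𝓞 K), f η = ε * z ^ p) := by
  classical
  have hζ' : IsPrimitiveRoot hζ.toInteger p := hζ.toInteger_isPrimitiveRoot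
  have hπ : Prime (hζ.toInteger - 1) := hζ.zeta_sub_one_prime'
  set π := hζ.toInteger - 1 with hπdef
  have hπ0 : π ≠ 0 := hπ.ne_zero
  have hodd : Odd p := hp.out.odd_of_ne_two hp2
  have hp0 : p ≠ 0 := hp.out.ne_zero
  -- π ∣ x ^ p + y ^ p
  have hdvd : π ∣ x ^ p + y ^ p := by
    rw [heq]
    exact Dvd.dvd.mul_right (Dvd.dvd.mul_left (dvd_pow_self π (by positivity)) _) _
  -- π ∤ y
  have hy : ¬ π ∣ y := by
    intro hy
    have hx : π ∣ x := by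
      have h1 : π ∣ x ^ p := (dvd_add_left (dvd_pow hy hp0)).mp hdvd
      exact hπ.dvd_of_dvd_pow h1
    exact hπ.not_isUnit (hxy.isUnit_of_dvd' hx hy)
  have hall := caseII_dvd_all hζ hp2 hdvd
  obtain ⟨η₀, hη₀, hsq⟩ := caseII_exists_sq_dvd hζ hp2 hy hdvd
  have hex : ∀ η : 𝓞 K, ∃ c : 𝓞 K, η ∈ nthRootsFinset p (1 : 𝓞 K) → x + η * y = π * c := by
    intro η
    by_cases hη : η ∈ nthRootsFinset p (1 : 𝓞 K)
    · obtain ⟨c, hc⟩ := hall η hη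
      exact ⟨c, fun _ => hc⟩
    · exact ⟨0, fun h => absurd h hη⟩
  choose c hc using hex
  -- the product formula
  have hprod : ∏ η ∈ nthRootsFinset p (1 : 𝓞 K), c η = ε * π ^ (p * (m - 1)) * z ^ p := by
    have h1 : x ^ p + y ^ p = ∏ η ∈ nthRootsFinset p (1 : 𝓞 K), (x + η * y) :=
      hζ'.pow_add_pow_eq_prod_add_mul x y hodd
    have h2 : ∏ η ∈ nthRootsFinset p (1 : 𝓞 K), (x + η * y) =
        π ^ p * ∏ η ∈ nthRootsFinset p (1 : 𝓞 K), c η := by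
      rw [Finset.prod_congr rfl (fun η hη => hc η hη), Finset.prod_mul_distrib,
        Finset.prod_const, hζ'.card_nthRootsFinset]
    have h3 : p * m = p + p * (m - 1) := by
      obtain ⟨k, rfl⟩ : ∃ k, m = k + 1 := ⟨m - 1, by omega⟩
      simp [Nat.mul_succ, add_comm]
    rw [h1, h2, h3, pow_add] at heq
    have h4 : π ^ p * ∏ η ∈ nthRootsFinset p (1 : 𝓞 K), c η =
        π ^ p * (ε * π ^ (p * (m - 1)) * z ^ p) := by
      rw [heq]; ring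
    exact mul_left_cancel₀ (pow_ne_zero p hπ0) h4
  -- pairwise coprime
  have hcop : ∀ η₁ ∈ nthRootsFinset p (1 : 𝓞 K), ∀ η₂ ∈ nthRootsFinset p (1 : 𝓞 K), η₁ ≠ η₂ →
      IsCoprime (c η₁) (c η₂) := fun η₁ h₁ η₂ h₂ hne =>
    caseII_isCoprime_quot hζ hxy h₁ h₂ hne (hc η₁ h₁) (hc η₂ h₂)
  -- π ∣ c η₀
  have hπc0 : π ∣ c η₀ := by
    have := hc η₀ hη₀
    rw [this, pow_two] at hsq
    exact (mul_dvd_mul_iff_left hπ0).mp hsq
  have hπc : ∀ η ∈ nthRootsFinset p (1 : 𝓞 K), η ≠ η₀ → ¬ π ∣ c η := by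
    intro η hη hne hd
    exact hπ.not_isUnit ((hcop η hη η₀ hη₀ hne).isUnit_of_dvd' hd hπc0)
  -- split off η₀
  set Q := ∏ η ∈ (nthRootsFinset p (1 : 𝓞 K)).erase η₀, c η with hQ
  have hsplit : ∏ η ∈ nthRootsFinset p (1 : 𝓞 K), c η = c η₀ * Q :=
    (Finset.mul_prod_erase _ _ hη₀).symm
  have hπQ : ¬ π ∣ Q := by
    rw [hQ, hπ.dvd_finsetProd_iff]
    rintro ⟨η, hη, hd⟩
    rw [Finset.mem_erase] at hη
    exact hπc η hη.2 hη.1 hd
  have hpow : π ^ (p * (m - 1)) ∣ c η₀ := by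
    apply hπ.pow_dvd_of_dvd_mul_right _ hπQ
    rw [← hsplit, hprod]
    exact Dvd.dvd.mul_right (Dvd.intro_left _ rfl) _
  obtain ⟨b₀, hb₀⟩ := hpow
  have hb₀Q : b₀ * Q = ε * z ^ p := by
    have : π ^ (p * (m - 1)) * (b₀ * Q) = π ^ (p * (m - 1)) * (ε * z ^ p) := by
      rw [← mul_assoc, ← hb₀, ← hsplit, hprod]; ring
    exact mul_left_cancel₀ (pow_ne_zero _ hπ0) this
  have hπb₀ : ¬ π ∣ b₀ := by
    intro hd
    have h1 : π ∣ (ε : 𝓞 K) * z ^ p := hb₀Q ▸ Dvd.dvd.mul_right hd Q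
    have h2 : π ∣ z ^ p := (hπ.dvd_or_dvd h1).resolve_left
      (fun h => hπ.not_isUnit (isUnit_of_dvd_unit h ε.isUnit))
    exact hz (hπ.dvd_of_dvd_pow h2)
  have hm2 : 2 ≤ m := by
    by_contra hlt
    have hm1 : m = 1 := by omega
    subst hm1
    simp only [Nat.sub_self, mul_zero, pow_zero, one_mul] at hb₀
    exact hπb₀ (hb₀ ▸ hπc0)
  refine ⟨hm2, η₀, fun η => if η = η₀ then b₀ else c η, hη₀, ?_, ?_, ?_, ?_, ?_⟩
  · simp only [if_true]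
    rw [hc η₀ hη₀, hb₀, pow_succ]; ring
  · intro η hη hne
    simp only [if_neg hne]
    exact hc η hη
  · intro η hη
    by_cases h : η = η₀
    · simpa [h] using hπb₀
    · simpa [h] using hπc η hη h
  · intro η₁ h₁ η₂ h₂ hne
    by_cases e1 : η₁ = η₀
    · have e2 : η₂ ≠ η₀ := fun e2 => hne (e1.trans e2.symm)
      simp only [e1, if_true, if_neg e2]
      have := hcop η₀ hη₀ η₂ h₂ (e1 ▸ hne)
      rw [hb₀] at this
      exact this.of_mul_left_right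
    · by_cases e2 : η₂ = η₀
      · simp only [e2, if_true, if_neg e1]
        have := hcop η₁ h₁ η₀ hη₀ e1
        rw [hb₀] at this
        exact this.of_mul_right_right
      · simp only [if_neg e1, if_neg e2]
        exact hcop η₁ h₁ η₂ h₂ hne
  · rw [← Finset.mul_prod_erase _ _ hη₀, if_pos rfl, ← hb₀Q]
    congr 1
    apply Finset.prod_congr rfl
    intro η hη
    rw [Finset.mem_erase] at hη
    rw [if_neg hη.1]

/-- The descent step of Kummer's case II. -/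
theorem caseII_descent [IsPrincipalIdealRing (𝓞 K)] (hζ : IsPrimitiveRoot ζ p) (hp2 : p ≠ 2)
    (hKL : KummerLemma p K) {m : ℕ} (hm : 1 ≤ m) (h : CaseIISol hζ m) :
    2 ≤ m ∧ CaseIISol hζ (m - 1) := by
  classical
  obtain ⟨x, y, z, ε, hxy, hz, heq⟩ := h
  obtain ⟨hm2, η₀, f, hη₀, hf₀, hf, hπf, hcop, hprod⟩ := caseII_factor hζ hp2 hm hxy hz heq
  refine ⟨hm2, ?_⟩
  have hζ' : IsPrimitiveRoot hζ.toInteger p := hζ.toInteger_isPrimitiveRoot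
  have hπ : Prime (hζ.toInteger - 1) := hζ.zeta_sub_one_prime'
  have hassoc := IsCyclotomicExtension.Rat.associated_zeta_sub_one_pow_prime p hζ
  have hcopr := fun (w : 𝓞 K) => IsCyclotomicExtension.Rat.isCoprime_of_not_zeta_sub_one_dvd
    p hζ (x := w)
  obtain ⟨pw, hpw'⟩ : ∃ pw : 𝓞 K → ℤ, ∀ α : 𝓞 K, (p : 𝓞 K) ∣ α ^ p - (pw α : 𝓞 K) :=
    ⟨fun α => (caseII_pow_congr_int hζ α).choose, fun α => (caseII_pow_congr_int hζ α).choose_spec⟩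
  set π := hζ.toInteger - 1 with hπdef
  set ω := hζ.toInteger with hω
  have hπ0 : π ≠ 0 := hπ.ne_zero
  have hodd : Odd p := hp.out.odd_of_ne_two hp2
  have hp0 : p ≠ 0 := hp.out.ne_zero
  have hp3 : 3 ≤ p := by
    have := hp.out.two_le
    omega
  -- p-th powers
  have hpw : ∀ η ∈ nthRootsFinset p (1 : 𝓞 K), ∃ d : 𝓞 K, Associated (d ^ p) (f η) :=
    caseII_exists_pow_of_prod _ f hcop (z := z) (k := p)
      (by rw [hprod]; exact associated_unit_mul_right _ _ ε.isUnit)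
  -- the three roots
  have hη₀p : η₀ ^ p = 1 := (mem_nthRootsFinset hp.out.pos 1).mp hη₀
  have hωp : ω ^ p = 1 := hζ'.pow_eq_one
  set η₁ := ω * η₀ with hη₁def
  set η₂ := ω ^ (p - 1) * η₀ with hη₂def
  have hη₁ : η₁ ∈ nthRootsFinset p (1 : 𝓞 K) := by
    rw [mem_nthRootsFinset hp.out.pos, hη₁def, mul_pow, hωp, hη₀p, one_mul]
  have hη₂ : η₂ ∈ nthRootsFinset p (1 : 𝓞 K) := by
    rw [mem_nthRootsFinset hp.out.pos, hη₂def, mul_pow, ← pow_mul, mul_comm (p - 1) p, pow_mul,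
      hωp, one_pow, hη₀p, one_mul]
  have hη₀0 : η₀ ≠ 0 := by
    intro h
    rw [h, zero_pow hp0] at hη₀p
    exact zero_ne_one hη₀p
  have hω1 : ω ≠ 1 := hζ'.ne_one hp.out.one_lt
  have hωpm1 : ω ^ (p - 1) ≠ 1 := hζ'.pow_ne_one_of_pos_of_lt (by omega) (by omega)
  have hωω : ω * ω ^ (p - 1) = 1 := by
    rw [← pow_succ', Nat.sub_add_cancel hp.out.one_le, hωp]
  have h10 : η₁ ≠ η₀ := by
    intro h
    apply hω1
    exact mul_right_cancel₀ hη₀0 (by rw [one_mul]; exact h)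
  have h20 : η₂ ≠ η₀ := by
    intro h
    apply hωpm1
    exact mul_right_cancel₀ hη₀0 (by rw [one_mul]; exact h)
  have h12 : η₁ ≠ η₂ := by
    intro h
    have h' : ω = ω ^ (p - 1) := mul_right_cancel₀ hη₀0 h
    have h2 : ω ^ 2 = 1 := by
      rw [pow_two]
      nth_rewrite 2 [h']
      exact hωω
    have h3 := hζ'.dvd_of_pow_eq_one 2 h2
    have := Nat.le_of_dvd (by norm_num) h3
    omega
  -- the key identity
  have hkey : f η₁ + ω * f η₂ = (1 + ω) * π ^ (p * (m - 1)) * f η₀ := by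
    have e1 := hf η₁ hη₁ h10
    have e2 := hf η₂ hη₂ h20
    have e3 : (x + η₁ * y) + ω * (x + η₂ * y) = (1 + ω) * (x + η₀ * y) := by
      rw [hη₁def, hη₂def]
      linear_combination (η₀ * y) * hωω
    rw [e1, e2, hf₀, pow_succ] at e3
    have : π * (f η₁ + ω * f η₂) = π * ((1 + ω) * π ^ (p * (m - 1)) * f η₀) := by
      linear_combination e3
    exact mul_left_cancel₀ hπ0 this
  obtain ⟨ρ₁, u₁, h₁⟩ := hpw η₁ hη₁
  obtain ⟨ρ₂, u₂, h₂⟩ := hpw η₂ hη₂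
  obtain ⟨ρ₀, u₀, h₀⟩ := hpw η₀ hη₀
  -- units
  have hωu : IsUnit ω := hζ'.isUnit hp0
  have h1ω : IsUnit (1 + ω) := by
    have := hζ'.geom_sum_isUnit hp.out.two_le (j := 2) (Nat.coprime_two_left.mpr hodd)
    simpa [Finset.sum_range_succ] using this
  obtain ⟨ωu, hωu'⟩ := hωu
  obtain ⟨τ, hτ⟩ := h1ω
  set θ : (𝓞 K)ˣ := ωu * u₂ * u₁⁻¹ with hθ
  set ε' : (𝓞 K)ˣ := τ * u₀ * u₁⁻¹ with hε'
  have hmain : ρ₁ ^ p + θ * ρ₂ ^ p = ε' * π ^ (p * (m - 1)) * ρ₀ ^ p := by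
    rw [← h₁, ← h₂, ← h₀] at hkey
    have hu : (u₁ : 𝓞 K) * (u₁⁻¹ : (𝓞 K)ˣ) = 1 := by simp
    simp only [hθ, hε', Units.val_mul, hωu', hτ]
    linear_combination (↑u₁⁻¹ : 𝓞 K) * hkey - ρ₁ ^ p * hu
  -- Kummer's lemma applies to θ
  have hpdvd : (p : 𝓞 K) ∣ π ^ (p * (m - 1)) := by
    refine hassoc.symm.dvd.trans (pow_dvd_pow π ?_)
    calc p - 1 ≤ p * 1 := by omega
      _ ≤ p * (m - 1) := Nat.mul_le_mul_left p (by omega)
  have hπρ₂ : ¬ π ∣ ρ₂ := fun hd => hπf η₂ hη₂ (h₂ ▸ Dvd.dvd.mul_right (dvd_pow hd hp0) _)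
  obtain ⟨s, t, hst⟩ := hcopr ρ₂ hπρ₂
  have hn := hpw' (-(t * ρ₁))
  set n := pw (-(t * ρ₁)) with hndef
  have hθn : (p : 𝓞 K) ∣ (θ : 𝓞 K) - n := by
    have h1 : (p : 𝓞 K) ∣ (t * ρ₂) ^ p - 1 := by
      have : (p : 𝓞 K) ∣ t * ρ₂ - 1 := ⟨-s, by linear_combination hst⟩
      exact this.trans (by simpa using sub_dvd_pow_sub_pow (t * ρ₂) 1 p)
    have h2 : (p : 𝓞 K) ∣ ρ₁ ^ p + θ * ρ₂ ^ p := by
      rw [hmain]
      exact Dvd.dvd.mul_right (Dvd.dvd.mul_left hpdvd _) _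
    have h3 : (-(t * ρ₁)) ^ p = -(t * ρ₁) ^ p := hodd.neg_pow _
    rw [h3] at hn
    have : (θ : 𝓞 K) - n = -(θ * ((t * ρ₂) ^ p - 1)) + t ^ p * (ρ₁ ^ p + θ * ρ₂ ^ p) +
        (-(t * ρ₁) ^ p - n) := by ring
    rw [this]
    exact dvd_add (dvd_add (Dvd.dvd.neg_right (Dvd.dvd.mul_left h1 _)) (Dvd.dvd.mul_left h2 _)) hn
  obtain ⟨v, hv⟩ := hKL θ ⟨n, hθn⟩
  refine ⟨ρ₁, v * ρ₂, ρ₀, ε', ?_, ?_, ?_⟩
  · have hc12 := hcop η₁ hη₁ η₂ hη₂ h12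
    rw [← h₁, ← h₂] at hc12
    have h4 : IsCoprime (ρ₁ ^ p) (ρ₂ ^ p) := hc12.of_mul_left_left.of_mul_right_left
    have h5 : IsCoprime ρ₁ ρ₂ := (IsCoprime.pow_iff hp.out.pos hp.out.pos).mp h4
    exact (isCoprime_mul_unit_left_right v.isUnit _ _).mpr h5
  · intro hd
    exact hπf η₀ hη₀ (h₀ ▸ Dvd.dvd.mul_right (dvd_pow hd hp0) _)
  · rw [mul_pow, ← Units.val_pow_eq_pow_val, ← hv]
    exact hmain

theorem caseII_no_sol [IsPrincipalIdealRing (𝓞 K)] (hζ : IsPrimitiveRoot ζ p) (hp2 : p ≠ 2)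
    (hKL : KummerLemma p K) : ∀ m : ℕ, 1 ≤ m → ¬ CaseIISol hζ m := by
  intro m
  induction m with
  | zero => intro h; omega
  | succ k ih =>
    intro _ hsol
    obtain ⟨h2, hsol'⟩ := caseII_descent hζ hp2 hKL (by omega) hsol
    exact ih (by omega) (by simpa using hsol')

end Fermat.Agent.Kummer

namespace Fermat.Agent.Kummer

open NumberField

/-- Kummer's case II of Fermat's Last Theorem for a prime `p` such that `ℤ[ζ_p]` is a PID and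
Kummer's lemma holds. -/
theorem caseII (p : ℕ) [Fact p.Prime] (hp5 : 5 ≤ p) (K : Type) [Field K] [NumberField K]
    [IsCyclotomicExtension {p} ℚ K] [IsPrincipalIdealRing (𝓞 K)] (hKL : KummerLemma p K)
    (a b c : ℤ) (hab : IsCoprime a b) (hc0 : c ≠ 0) (hpc : (p : ℤ) ∣ c)
    (h : a ^ p + b ^ p = c ^ p) : False := by
  have hζ := IsCyclotomicExtension.zeta_spec p ℚ K
  have hp2 : p ≠ 2 := by omega
  obtain ⟨m, x, y, z, ε, hm, hxy, hz, heq⟩ := caseII_of_int hζ hp2 a b c hab hc0 hpc h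
  exact caseII_no_sol hζ hp2 hKL m hm ⟨x, y, z, ε, hxy, hz, heq⟩

end Fermat.Agent.Kummer
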