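import Fermat.Agent.Kummer.Defs

set_option autoImplicit false

/-!
# Project KUMMER: the abstract form of Kummer's lemma

Let `K` be a number field, `p` a prime and `Λ` an additive map from the units of `𝓞 K` to a vector
space over `ZMod p`.  If the images of `rank K + 1` units are linearly independent, then the kernel
of `Λ` consists of `p`-th powers (Dirichlet's unit theorem + a dimension count).
-/

namespace Fermat.Agent.Kummer

open NumberField NumberField.Units

section abstract

variable {K : Type} [Field K] [NumberField K] {p : ℕ} [Fact p.Prime]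
  {V : Type*} [AddCommGroup V] [Module (ZMod p) V]

/-- **Abstract Kummer lemma.** If `Λ` is additive on units with values in a `ZMod p`-vector space
and `rank K + 1` units have linearly independent images, every unit in the kernel of `Λ` is a
`p`-th power. -/
theorem exists_pow_of_linearIndependent (Λ : (𝓞 K)ˣ → V)
    (hΛ : ∀ u v, Λ (u * v) = Λ u + Λ v) {ι : Type*} [Fintype ι] (w : ι → (𝓞 K)ˣ)
    (hcard : Fintype.card ι = rank K + 1)
    (hw : LinearIndependent (ZMod p) (fun i => Λ (w i))) (u : (𝓞 K)ˣ) (hu : Λ u = 0) :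
    ∃ v : (𝓞 K)ˣ, u = v ^ p := by
  classical
  -- additive version of `Λ`
  let L : Additive (𝓞 K)ˣ →+ V :=
    AddMonoidHom.mk' (fun a => Λ a.toMul) (fun a b => hΛ _ _)
  have hL : ∀ u, L (Additive.ofMul u) = Λ u := fun u => rfl
  -- a generator of the torsion subgroup
  obtain ⟨g, hg⟩ := IsCyclic.exists_generator (α := torsion K)
  -- the family `g, ε₁, …, ε_r`
  let b : Option (Fin (rank K)) → (𝓞 K)ˣ := fun o => o.elim (g : (𝓞 K)ˣ) (fundSystem K)
  have hdec : ∀ x : (𝓞 K)ˣ, ∃ c : Option (Fin (rank K)) → ℤ, x = ∏ o, b o ^ c o := by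
    intro x
    obtain ⟨⟨τ, e⟩, hx, -⟩ := exist_unique_eq_mul_prod K x
    obtain ⟨k, hk⟩ := Subgroup.mem_zpowers_iff.mp (hg τ)
    refine ⟨fun o => o.elim k e, ?_⟩
    rw [Fintype.prod_option]
    simp only [b, Option.elim]
    rw [hx]
    simp only
    rw [← hk]
    simp
  have hLdec : ∀ c : Option (Fin (rank K)) → ℤ,
      Λ (∏ o, b o ^ c o) = ∑ o, (c o : ZMod p) • Λ (b o) := by
    intro c
    rw [← hL, ofMul_prod, map_sum]
    refine Finset.sum_congr rfl fun o _ => ?_
    rw [ofMul_zpow, map_zsmul, hL, Int.cast_smul_eq_zsmul]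
  have hspan : ∀ x, Λ x ∈ Submodule.span (ZMod p) (Set.range fun o => Λ (b o)) := by
    intro x
    obtain ⟨c, rfl⟩ := hdec x
    rw [hLdec]
    exact Submodule.sum_mem _ fun o _ =>
      Submodule.smul_mem _ _ (Submodule.subset_span ⟨o, rfl⟩)
  -- the dimension count
  have hb : LinearIndependent (ZMod p) (fun o => Λ (b o)) := by
    rw [linearIndependent_iff_card_eq_finrank_span]
    apply le_antisymm
    · have h1 : Submodule.span (ZMod p) (Set.range fun i => Λ (w i)) ≤
          Submodule.span (ZMod p) (Set.range fun o => Λ (b o)) := by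
        rw [Submodule.span_le]
        rintro _ ⟨i, rfl⟩
        exact hspan _
      have : Module.Finite (ZMod p)
          (Submodule.span (ZMod p) (Set.range fun o => Λ (b o))) :=
        FiniteDimensional.span_of_finite _ (Set.finite_range _)
      have h2 := Submodule.finrank_mono h1
      rw [finrank_span_eq_card hw] at h2
      have h3 : Fintype.card (Option (Fin (rank K))) = rank K + 1 := by simp
      rw [h3, ← hcard]
      exact h2
    · exact finrank_range_le_card _
  obtain ⟨c, rfl⟩ := hdec u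
  rw [hLdec] at hu
  have hc := Fintype.linearIndependent_iff.mp hb (fun o => (c o : ZMod p)) hu
  have hc' : ∀ o, ∃ d : ℤ, c o = p * d := fun o =>
    (ZMod.intCast_zmod_eq_zero_iff_dvd _ _).mp (hc o)
  choose d hd using hc'
  refine ⟨∏ o, b o ^ d o, ?_⟩
  rw [← Finset.prod_pow]
  refine Finset.prod_congr rfl fun o _ => ?_
  rw [hd o, ← zpow_natCast, ← zpow_mul, mul_comm]

end abstract

/-- The unit rank of the `p`-th cyclotomic field is `(p - 3) / 2`. -/
theorem rank_add_one_of_cyclotomic (p : ℕ) [hp : Fact p.Prime] (hp2 : p ≠ 2) (K : Type) [Field K]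
    [NumberField K] [IsCyclotomicExtension {p} ℚ K] : rank K + 1 = (p - 1) / 2 := by
  have h3 : 2 < p := lt_of_le_of_ne hp.out.two_le (Ne.symm hp2)
  dsimp only [rank]
  rw [InfinitePlace.card_eq_nrRealPlaces_add_nrComplexPlaces,
    IsCyclotomicExtension.Rat.nrRealPlaces_eq_zero (n := p) K h3, zero_add,
    IsCyclotomicExtension.Rat.nrComplexPlaces_eq_totient_div_two p K, Nat.totient_prime hp.out]
  omega

/-- **Kummer's lemma from a linear-independence certificate.** -/
theorem kummerLemma_of_linearIndependent (p : ℕ) [hp : Fact p.Prime] (hp2 : p ≠ 2) (K : Type)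
    [Field K] [NumberField K] [IsCyclotomicExtension {p} ℚ K]
    {V : Type*} [AddCommGroup V] [Module (ZMod p) V] (Λ : (𝓞 K)ˣ → V)
    (hΛ : ∀ u v, Λ (u * v) = Λ u + Λ v) {ι : Type*} [Fintype ι] (w : ι → (𝓞 K)ˣ)
    (hcard : Fintype.card ι = (p - 1) / 2)
    (hw : LinearIndependent (ZMod p) (fun i => Λ (w i)))
    (hker : ∀ u : (𝓞 K)ˣ, (∃ n : ℤ, (p : 𝓞 K) ∣ (u : 𝓞 K) - (n : 𝓞 K)) → Λ u = 0) :
    KummerLemma p K := by
  intro u hu
  exact exists_pow_of_linearIndependent Λ hΛ w
    (hcard.trans (rank_add_one_of_cyclotomic p hp2 K).symm) hw u (hker u hu)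

end Fermat.Agent.Kummer
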