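import Fermat.Agent.Kummer.Lift
import Fermat.Agent.Kummer.UnitsAbs

set_option autoImplicit false

/-!
# Project KUMMER: Kummer's lemma from a finite certificate

For a commutative ring `A` of characteristic `p` and `r : A` with `r ^ (p - 2) = 0`, the element
`1 + r + ε` of the dual numbers `A[ε]` is a root of the `p`-th cyclotomic polynomial, so there is
a ring homomorphism `ψ : 𝓞 K → A[ε]`, `ζ ↦ 1 + r + ε`.  Writing `ψ u = a + b ε`, the map
`u ↦ b / a` is a logarithmic derivative on units, and it kills the units congruent to a rational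
integer modulo `p`.  With `A = (ZMod p)[X] / (X ^ (p - 2))` the independence of the logarithmic
derivatives of `(p - 1) / 2` cyclotomic units is a finite computation.
-/

namespace Fermat.Agent.Kummer

open NumberField Polynomial Finset TrivSqZeroExt

section dual

theorem natCast_self_eq_zero_of_algebra (p : ℕ) (A : Type*) [CommRing A] [Algebra (ZMod p) A] :
    (p : A) = 0 := by
  rw [← map_natCast (algebraMap (ZMod p) A), ZMod.natCast_self, map_zero]

variable {p : ℕ} [hp : Fact p.Prime] {A : Type*} [CommRing A]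


theorem cyclotomic_prime_of_ringHom {B : Type*} [CommRing B] (f : ZMod p →+* B) :
    cyclotomic p B = (X - 1) ^ (p - 1) := by
  have h := cyclotomic_mul_prime_eq_pow_of_not_dvd (ZMod p) (p := p) (n := 1)
    (by simpa using hp.out.one_lt.ne')
  rw [one_mul, cyclotomic_one] at h
  rw [← map_cyclotomic p f, h]
  simp

theorem dual_pow_eq_zero (r : A) (hr : r ^ (p - 2) = 0) :
    (inl r + DualNumber.eps : DualNumber A) ^ (p - 1) = 0 := by
  have h2 := hp.out.two_le
  ext
  · rw [fst_pow]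
    have : p - 1 = (p - 2) + 1 := by omega
    simp [this, pow_succ, hr]
  · rw [snd_pow]
    have : p - 1 - 1 = p - 2 := by omega
    simp [this, hr]

theorem eval_cyclotomic_dual [Algebra (ZMod p) A] (r : A) (hr : r ^ (p - 2) = 0) :
    (cyclotomic p (DualNumber A)).eval (1 + inl r + DualNumber.eps) = 0 := by
  rw [cyclotomic_prime_of_ringHom ((inlHom A A).comp (algebraMap (ZMod p) A))]
  simp only [eval_pow, eval_sub, eval_X, eval_one]
  rw [show (1 + inl r + DualNumber.eps : DualNumber A) - 1 = inl r + DualNumber.eps by ring]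
  exact dual_pow_eq_zero r hr

end dual

section lam

variable {p : ℕ} [hp : Fact p.Prime] {K : Type} [Field K] [NumberField K]
  [IsCyclotomicExtension {p} ℚ K] {ζ : K} (hζ : IsPrimitiveRoot ζ p)
  {A : Type*} [CommRing A] [Algebra (ZMod p) A] (r : A) (hr : r ^ (p - 2) = 0)

/-- The ring homomorphism `𝓞 K → A[ε]`, `ζ ↦ 1 + r + ε`. -/
noncomputable def kPsi : 𝓞 K →+* DualNumber A :=
  cycLift hζ (1 + inl r + DualNumber.eps) (eval_cyclotomic_dual r hr)

theorem kPsi_toInteger : kPsi hζ r hr hζ.toInteger = 1 + inl r + DualNumber.eps :=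
  cycLift_toInteger _ _ _

/-- The logarithmic derivative of a unit. -/
noncomputable def kLam (u : (𝓞 K)ˣ) : A :=
  snd (kPsi hζ r hr u) * fst (kPsi hζ r hr ↑u⁻¹)

theorem kPsi_fst_mul_inv (u : (𝓞 K)ˣ) :
    fst (kPsi hζ r hr u) * fst (kPsi hζ r hr ↑u⁻¹) = 1 := by
  rw [← fst_mul, ← map_mul, Units.mul_inv, map_one, fst_one]

theorem kLam_mul (u v : (𝓞 K)ˣ) :
    kLam hζ r hr (u * v) = kLam hζ r hr u + kLam hζ r hr v := by
  have h1 := kPsi_fst_mul_inv hζ r hr u
  have h2 := kPsi_fst_mul_inv hζ r hr v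
  simp only [kLam, Units.val_mul, mul_inv, map_mul, fst_mul, snd_mul, smul_eq_mul,
    MulOpposite.smul_eq_mul_unop, MulOpposite.unop_op]
  linear_combination (snd (kPsi hζ r hr v) * fst (kPsi hζ r hr ↑v⁻¹)) * h1 +
    (snd (kPsi hζ r hr u) * fst (kPsi hζ r hr ↑u⁻¹)) * h2

theorem kLam_eq_zero_of_dvd (u : (𝓞 K)ˣ)
    (h : ∃ n : ℤ, (p : 𝓞 K) ∣ (u : 𝓞 K) - (n : 𝓞 K)) : kLam hζ r hr u = 0 := by
  obtain ⟨n, t, ht⟩ := h
  have hu : (u : 𝓞 K) = n + p * t := by rw [← ht]; ring
  have hp0 : ((p : ℕ) : DualNumber A) = 0 := by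
    rw [← inl_natCast, natCast_self_eq_zero_of_algebra p A, inl_zero]
  have : kPsi hζ r hr u = (n : DualNumber A) := by
    rw [hu, map_add, map_mul, map_intCast, map_natCast, hp0, zero_mul, add_zero]
  rw [kLam, this, snd_intCast, zero_mul]

theorem kLam_eq_of_mul_eq (u : (𝓞 K)ˣ) (d : A)
    (h : fst (kPsi hζ r hr u) * d = snd (kPsi hζ r hr u)) : kLam hζ r hr u = d := by
  have h1 := kPsi_fst_mul_inv hζ r hr u
  rw [kLam, ← h]
  linear_combination d * h1

theorem kPsi_geom_sum_fst (a : ℕ) :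
    fst (kPsi hζ r hr (∑ i ∈ range a, hζ.toInteger ^ i)) = ∑ i ∈ range a, (1 + r) ^ i := by
  rw [map_sum, fst_sum]
  refine Finset.sum_congr rfl fun i _ => ?_
  rw [map_pow, kPsi_toInteger, fst_pow]
  simp

theorem kPsi_geom_sum_snd (a : ℕ) :
    snd (kPsi hζ r hr (∑ i ∈ range a, hζ.toInteger ^ i)) =
      ∑ i ∈ range a, (i : A) * (1 + r) ^ (i - 1) := by
  rw [map_sum, snd_sum]
  refine Finset.sum_congr rfl fun i _ => ?_
  rw [map_pow, kPsi_toInteger, snd_pow]
  simp [Nat.pred_eq_sub_one]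

/-- The cyclotomic unit `∑ i < a, ζ ^ i` has logarithmic derivative `d`, as soon as `d` satisfies
the obvious equation. -/
theorem exists_unit_kLam_eq (a : ℕ) (ha : a.Coprime p) (d : A)
    (h : (∑ i ∈ range a, (1 + r) ^ i) * d = ∑ i ∈ range a, (i : A) * (1 + r) ^ (i - 1)) :
    ∃ u : (𝓞 K)ˣ, kLam hζ r hr u = d := by
  have hu := hζ.toInteger_isPrimitiveRoot.geom_sum_isUnit hp.out.two_le ha
  refine ⟨hu.unit, kLam_eq_of_mul_eq hζ r hr _ d ?_⟩
  rw [IsUnit.unit_spec, kPsi_geom_sum_fst, kPsi_geom_sum_snd]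
  exact h

end lam

section indep

variable {p : ℕ} [hp : Fact p.Prime] {n m : ℕ}

/-- Linear independence in `(ZMod p)[X] / (X ^ n)` from a coefficient matrix with a right
inverse. -/
theorem linearIndependent_adjoinRoot_of_coeffs
    (D : Matrix (Fin m) (Fin n) (ZMod p)) (N : Matrix (Fin n) (Fin m) (ZMod p)) (hDN : D * N = 1)
    (v : Fin m → AdjoinRoot (X ^ n : (ZMod p)[X]))
    (hv : ∀ a, v a = ∑ j : Fin n, algebraMap (ZMod p) (AdjoinRoot (X ^ n : (ZMod p)[X])) (D a j) *
      AdjoinRoot.root (X ^ n : (ZMod p)[X]) ^ (j : ℕ)) :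
    LinearIndependent (ZMod p) v := by
  rw [Fintype.linearIndependent_iff]
  intro g hg
  set P : (ZMod p)[X] := ∑ j : Fin n, C (Matrix.vecMul g D j) * X ^ (j : ℕ) with hP
  have hmk : AdjoinRoot.mk (X ^ n : (ZMod p)[X]) P = ∑ a, g a • v a := by
    rw [hP, map_sum]
    simp_rw [hv, Finset.smul_sum, map_mul, map_pow, AdjoinRoot.mk_X, AdjoinRoot.mk_C,
      Matrix.vecMul, dotProduct, map_sum, Finset.sum_mul, map_mul]
    rw [Finset.sum_comm]
    refine Finset.sum_congr rfl fun a _ => Finset.sum_congr rfl fun j _ => ?_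
    rw [Algebra.smul_def, AdjoinRoot.algebraMap_eq, mul_assoc]
  have hdvd : (X ^ n : (ZMod p)[X]) ∣ P := by
    rw [← AdjoinRoot.mk_eq_zero, hmk, hg]
  have hP0 : P = 0 := eq_zero_of_dvd_of_degree_lt hdvd (by
    rw [degree_X_pow]
    exact degree_sum_fin_lt _)
  have hc : Matrix.vecMul g D = 0 := by
    funext j
    have h := congrArg (fun q => coeff q (j : ℕ)) hP0
    simp only [hP, finsetSum_coeff, coeff_C_mul_X_pow, coeff_zero] at h
    rw [Finset.sum_eq_single j (fun b _ hb => if_neg (fun hh => hb (Fin.ext hh.symm)))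
      (fun hj => absurd (Finset.mem_univ j) hj), if_pos rfl] at h
    exact h
  have h2 : g = Matrix.vecMul (Matrix.vecMul g D) N := by
    rw [Matrix.vecMul_vecMul, hDN, Matrix.vecMul_one]
  rw [hc, Matrix.zero_vecMul] at h2
  intro i
  rw [h2]
  rfl

end indep

section certificate

/-- **Kummer's lemma from a finite certificate**: `m = (p - 1) / 2` cyclotomic units
`∑ k < av i, ζ ^ k`, their logarithmic derivatives `∑ j, D i j * X ^ j` modulo `X ^ (p - 2)`
(certified by `hcert`), and a right inverse `N` of the coefficient matrix `D`. -/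
theorem kummerLemma_of_certificate (p : ℕ) [hp : Fact p.Prime] (hp2 : p ≠ 2) (K : Type) [Field K]
    [NumberField K] [IsCyclotomicExtension {p} ℚ K] (m n : ℕ) (hn : n = p - 2)
    (hm : m = (p - 1) / 2) (D : Matrix (Fin m) (Fin n) (ZMod p))
    (N : Matrix (Fin n) (Fin m) (ZMod p)) (hDN : D * N = 1) (av : Fin m → ℕ)
    (hav : ∀ i, (av i).Coprime p)
    (hcert : ∀ i : Fin m,
      (∑ k ∈ range (av i), (1 + AdjoinRoot.root (X ^ n : (ZMod p)[X])) ^ k) *
        (∑ j : Fin n, algebraMap (ZMod p) (AdjoinRoot (X ^ n : (ZMod p)[X])) (D i j) *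
          AdjoinRoot.root (X ^ n : (ZMod p)[X]) ^ (j : ℕ)) =
      ∑ k ∈ range (av i), (k : AdjoinRoot (X ^ n : (ZMod p)[X])) *
        (1 + AdjoinRoot.root (X ^ n : (ZMod p)[X])) ^ (k - 1)) :
    KummerLemma p K := by
  have hζ := IsCyclotomicExtension.zeta_spec p ℚ K
  have hr : (AdjoinRoot.root (X ^ n : (ZMod p)[X])) ^ (p - 2) = 0 := by
    rw [← hn, ← AdjoinRoot.mk_X, ← map_pow, AdjoinRoot.mk_self]
  have hex : ∀ i : Fin m, ∃ u : (𝓞 K)ˣ, kLam hζ _ hr u =
      ∑ j : Fin n, algebraMap (ZMod p) (AdjoinRoot (X ^ n : (ZMod p)[X])) (D i j) *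
          AdjoinRoot.root (X ^ n : (ZMod p)[X]) ^ (j : ℕ) := fun i =>
    exists_unit_kLam_eq hζ _ hr (av i) (hav i) _ (hcert i)
  choose w hw using hex
  refine kummerLemma_of_linearIndependent p hp2 K (kLam hζ _ hr) (kLam_mul hζ _ hr) w
    (by rw [Fintype.card_fin, hm]) ?_ (kLam_eq_zero_of_dvd hζ _ hr)
  exact linearIndependent_adjoinRoot_of_coeffs D N hDN _ hw

end certificate

end Fermat.Agent.Kummer
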