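import Fermat.Agent.Kummer.KL

set_option autoImplicit false

/-!
# Project KUMMER: Kummer's lemma for `p = 11`

Certificate: the logarithmic derivatives modulo `(11, X ^ 9)` of the cyclotomic units
`∑ k < a, ζ ^ k`, `a ∈ {10, 2, 3, 4, 5}`, and a right inverse of their coefficient matrix.
-/

namespace Fermat.Agent.Kummer

open NumberField Polynomial Finset

/-- Coefficients of the logarithmic derivatives for `p = 11`. -/
def kD11 : Matrix (Fin 5) (Fin 9) (ZMod 11) :=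
  !![10, 1, 10, 1, 10, 1, 10, 1, 10; 6, 8, 7, 2, 10, 6, 8, 7, 2; 1, 7, 0, 5, 6, 7, 2, 3, 0; 7, 8, 1, 8, 7, 6, 4, 0, 0; 2, 0, 10, 3, 0, 6, 5, 6, 5]

/-- A right inverse of `kD11`. -/
def kN11 : Matrix (Fin 9) (Fin 5) (ZMod 11) :=
  !![2, 6, 7, 0, 2; 10, 8, 7, 4, 2; 0, 0, 0, 0, 0; 2, 0, 1, 3, 1; 0, 0, 0, 0, 0; 0, 8, 5, 0, 1; 0, 0, 0, 0, 0; 2, 1, 5, 4, 9; 0, 0, 0, 0, 0]

theorem kD11_mul_kN11 : kD11 * kN11 = 1 := by
  decide

/-- **Kummer's lemma** for `p = 11`. -/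
theorem kummerLemma_eleven (K : Type) [Field K] [NumberField K] [IsCyclotomicExtension {11} ℚ K] :
    KummerLemma 11 K := by
  have : Fact (Nat.Prime 11) := ⟨by norm_num⟩
  refine kummerLemma_of_certificate 11 (by norm_num) K 5 9 rfl rfl kD11 kN11 kD11_mul_kN11
    ![10, 2, 3, 4, 5] (by decide) ?_
  have hr : (AdjoinRoot.root (X ^ 9 : (ZMod 11)[X])) ^ 9 = 0 := by
    rw [← AdjoinRoot.mk_X, ← map_pow, AdjoinRoot.mk_self]
  have hp : (11 : AdjoinRoot (X ^ 9 : (ZMod 11)[X])) = 0 := by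
    exact_mod_cast natCast_self_eq_zero_of_algebra 11 (AdjoinRoot (X ^ 9 : (ZMod 11)[X]))
  generalize AdjoinRoot.root (X ^ 9 : (ZMod 11)[X]) = r at hr ⊢
  intro i
  fin_cases i
  · simp [Finset.sum_range_succ, Fin.sum_univ_succ, kD11, map_ofNat]
    linear_combination ((5612) + (5486) * r + (5042) * r ^ 2 + (4076) * r ^ 3 + (2690) * r ^ 4 + (1346) * r ^ 5 + (470) * r ^ 6 + (101) * r ^ 7 + (10) * r ^ 8) * hr + ((5) + (20) * r + (65) * r ^ 2 + (152) * r ^ 3 + (275) * r ^ 4 + (392) * r ^ 5 + (470) * r ^ 6 + (502) * r ^ 7 + (511) * r ^ 8) * hp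
  · simp [Finset.sum_range_succ, Fin.sum_univ_succ, kD11, map_ofNat]
    linear_combination ((2)) * hr + ((1) + (2) * r + (2) * r ^ 2 + (1) * r ^ 3 + (2) * r ^ 4 + (2) * r ^ 5 + (2) * r ^ 6 + (2) * r ^ 7 + (1) * r ^ 8) * hp
  · simp [Finset.sum_range_succ, Fin.sum_univ_succ, kD11, map_ofNat]
    linear_combination ((3)) * hr + ((2) * r + (2) * r ^ 2 + (2) * r ^ 3 + (3) * r ^ 4 + (4) * r ^ 5 + (3) * r ^ 6 + (2) * r ^ 7 + (1) * r ^ 8) * hp
  · simp [Finset.sum_range_succ, Fin.sum_univ_succ, kD11, map_ofNat]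
    linear_combination ((4)) * hr + ((2) + (6) * r + (7) * r ^ 2 + (7) * r ^ 3 + (8) * r ^ 4 + (9) * r ^ 5 + (8) * r ^ 6 + (5) * r ^ 7 + (2) * r ^ 8) * hp
  · simp [Finset.sum_range_succ, Fin.sum_univ_succ, kD11, map_ofNat]
    linear_combination ((141) + (85) * r + (31) * r ^ 2 + (5) * r ^ 3) * hr + ((5) * r ^ 2 + (11) * r ^ 3 + (12) * r ^ 4 + (10) * r ^ 5 + (10) * r ^ 6 + (13) * r ^ 7 + (15) * r ^ 8) * hp

end Fermat.Agent.Kummer
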