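import Fermat.Agent.Kummer.KL

set_option autoImplicit false

/-!
# Project KUMMER: Kummer's lemma for `p = 13`

Certificate: the logarithmic derivatives modulo `(13, X ^ 11)` of the cyclotomic units
`∑ k < a, ζ ^ k`, `a ∈ {12, 2, 3, 4, 5, 6}`, and a right inverse of their coefficient matrix.
-/

namespace Fermat.Agent.Kummer

open NumberField Polynomial Finset

/-- Coefficients of the logarithmic derivatives for `p = 13`. -/
def kD13 : Matrix (Fin 6) (Fin 11) (ZMod 13) :=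
  !![12, 1, 12, 1, 12, 1, 12, 1, 12, 1, 12; 7, 3, 5, 4, 11, 1, 6, 10, 8, 9, 2; 1, 4, 0, 3, 10, 2, 12, 9, 0, 10, 3; 8, 3, 11, 11, 1, 1, 11, 5, 4, 9, 4; 2, 0, 12, 6, 0, 2, 11, 4, 7, 3, 5; 9, 8, 3, 8, 9, 1, 6, 7, 6, 7, 6]

/-- A right inverse of `kD13`. -/
def kN13 : Matrix (Fin 11) (Fin 6) (ZMod 13) :=
  !![12, 10, 12, 7, 4, 4; 10, 2, 12, 11, 2, 1; 0, 0, 0, 0, 0, 0; 10, 10, 2, 9, 2, 2; 0, 0, 0, 0, 0, 0; 4, 7, 4, 9, 7, 11; 0, 0, 0, 0, 0, 0; 6, 11, 0, 6, 1, 1; 0, 0, 0, 0, 0, 0; 9, 6, 7, 11, 5, 2; 0, 0, 0, 0, 0, 0]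

theorem kD13_mul_kN13 : kD13 * kN13 = 1 := by
  decide

/-- **Kummer's lemma** for `p = 13`. -/
theorem kummerLemma_thirteen (K : Type) [Field K] [NumberField K] [IsCyclotomicExtension {13} ℚ K] :
    KummerLemma 13 K := by
  have : Fact (Nat.Prime 13) := ⟨by norm_num⟩
  refine kummerLemma_of_certificate 13 (by norm_num) K 6 11 rfl rfl kD13 kN13 kD13_mul_kN13
    ![12, 2, 3, 4, 5, 6] (by decide) ?_
  have hr : (AdjoinRoot.root (X ^ 11 : (ZMod 13)[X])) ^ 11 = 0 := by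
    rw [← AdjoinRoot.mk_X, ← map_pow, AdjoinRoot.mk_self]
  have hp : (13 : AdjoinRoot (X ^ 11 : (ZMod 13)[X])) = 0 := by
    exact_mod_cast natCast_self_eq_zero_of_algebra 13 (AdjoinRoot (X ^ 11 : (ZMod 13)[X]))
  generalize AdjoinRoot.root (X ^ 11 : (ZMod 13)[X]) = r at hr ⊢
  intro i
  fin_cases i
  · simp [Finset.sum_range_succ, Fin.sum_univ_succ, kD13, map_ofNat]
    linear_combination ((26600) + (26413) * r + (25588) * r ^ 2 + (23278) * r ^ 3 + (18856) * r ^ 4 + (12850) * r ^ 5 + (6976) * r ^ 6 + (2851) * r ^ 7 + (816) * r ^ 8 + (145) * r ^ 9 + (12) * r ^ 10) * hr + ((6) + (28) * r + (105) * r ^ 2 + (292) * r ^ 3 + (633) * r ^ 4 + (1084) * r ^ 5 + (1524) * r ^ 6 + (1832) * r ^ 7 + (1986) * r ^ 8 + (2036) * r ^ 9 + (2047) * r ^ 10) * hp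
  · simp [Finset.sum_range_succ, Fin.sum_univ_succ, kD13, map_ofNat]
    linear_combination ((2)) * hr + ((1) + (1) * r + (1) * r ^ 2 + (1) * r ^ 3 + (2) * r ^ 4 + (1) * r ^ 5 + (1) * r ^ 6 + (2) * r ^ 7 + (2) * r ^ 8 + (2) * r ^ 9 + (1) * r ^ 10) * hp
  · simp [Finset.sum_range_succ, Fin.sum_univ_succ, kD13, map_ofNat]
    linear_combination ((19) + (3) * r) * hr + ((1) * r + (1) * r ^ 2 + (1) * r ^ 3 + (3) * r ^ 4 + (3) * r ^ 5 + (4) * r ^ 6 + (5) * r ^ 7 + (3) * r ^ 8 + (3) * r ^ 9 + (3) * r ^ 10) * hp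
  · simp [Finset.sum_range_succ, Fin.sum_univ_succ, kD13, map_ofNat]
    linear_combination ((64) + (25) * r + (4) * r ^ 2) * hr + ((2) + (4) * r + (7) * r ^ 2 + (10) * r ^ 3 + (9) * r ^ 4 + (5) * r ^ 5 + (5) * r ^ 6 + (7) * r ^ 7 + (7) * r ^ 8 + (7) * r ^ 9 + (7) * r ^ 10) * hp
  · simp [Finset.sum_range_succ, Fin.sum_univ_succ, kD13, map_ofNat]
    linear_combination ((119) + (72) * r + (28) * r ^ 2 + (5) * r ^ 3) * hr + ((5) * r ^ 2 + (12) * r ^ 3 + (14) * r ^ 4 + (10) * r ^ 5 + (9) * r ^ 6 + (12) * r ^ 7 + (15) * r ^ 8 + (14) * r ^ 9 + (12) * r ^ 10) * hp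
  · simp [Finset.sum_range_succ, Fin.sum_univ_succ, kD13, map_ofNat]
    linear_combination ((368) + (268) * r + (138) * r ^ 2 + (43) * r ^ 3 + (6) * r ^ 4) * hr + ((3) + (11) * r + (21) * r ^ 2 + (28) * r ^ 3 + (31) * r ^ 4 + (31) * r ^ 5 + (29) * r ^ 6 + (26) * r ^ 7 + (26) * r ^ 8 + (29) * r ^ 9 + (31) * r ^ 10) * hp

end Fermat.Agent.Kummer
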