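import Fermat.Agent.Kummer.KL

set_option autoImplicit false

/-!
# Project KUMMER: Kummer's lemma for `p = 5`

Certificate: the logarithmic derivatives modulo `(5, X ^ 3)` of the cyclotomic units
`∑ k < a, ζ ^ k`, `a ∈ {4, 2}`, and a right inverse of their coefficient matrix.
-/

namespace Fermat.Agent.Kummer

open NumberField Polynomial Finset

/-- Coefficients of the logarithmic derivatives for `p = 5`. -/
def kD5 : Matrix (Fin 2) (Fin 3) (ZMod 5) :=
  !![4, 1, 4; 3, 1, 2]

/-- A right inverse of `kD5`. -/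
def kN5 : Matrix (Fin 3) (Fin 2) (ZMod 5) :=
  !![1, 4; 2, 4; 0, 0]

theorem kD5_mul_kN5 : kD5 * kN5 = 1 := by
  decide

/-- **Kummer's lemma** for `p = 5`. -/
theorem kummerLemma_five (K : Type) [Field K] [NumberField K] [IsCyclotomicExtension {5} ℚ K] :
    KummerLemma 5 K := by
  have : Fact (Nat.Prime 5) := ⟨by norm_num⟩
  refine kummerLemma_of_certificate 5 (by norm_num) K 2 3 rfl rfl kD5 kN5 kD5_mul_kN5
    ![4, 2] (by decide) ?_
  have hr : (AdjoinRoot.root (X ^ 3 : (ZMod 5)[X])) ^ 3 = 0 := by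
    rw [← AdjoinRoot.mk_X, ← map_pow, AdjoinRoot.mk_self]
  have hp : (5 : AdjoinRoot (X ^ 3 : (ZMod 5)[X])) = 0 := by
    exact_mod_cast natCast_self_eq_zero_of_algebra 5 (AdjoinRoot (X ^ 3 : (ZMod 5)[X]))
  generalize AdjoinRoot.root (X ^ 3 : (ZMod 5)[X]) = r at hr ⊢
  intro i
  fin_cases i
  · simp [Finset.sum_range_succ, Fin.sum_univ_succ, kD5, map_ofNat]
    linear_combination ((32) + (17) * r + (4) * r ^ 2) * hr + ((2) + (4) * r + (7) * r ^ 2) * hp
  · simp [Finset.sum_range_succ, Fin.sum_univ_succ, kD5, map_ofNat]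
    linear_combination ((2)) * hr + ((1) + (1) * r + (1) * r ^ 2) * hp

end Fermat.Agent.Kummer
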