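import Fermat.Agent.Kummer.KL

set_option autoImplicit false

/-!
# Project KUMMER: Kummer's lemma for `p = 7`

Certificate: the logarithmic derivatives modulo `(7, X ^ 5)` of the cyclotomic units
`∑ k < a, ζ ^ k`, `a ∈ {6, 2, 3}`, and a right inverse of their coefficient matrix.
-/

namespace Fermat.Agent.Kummer

open NumberField Polynomial Finset

/-- Coefficients of the logarithmic derivatives for `p = 7`. -/
def kD7 : Matrix (Fin 3) (Fin 5) (ZMod 7) :=
  !![6, 1, 6, 1, 6; 4, 5, 1, 3, 2; 1, 2, 0, 4, 3]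

/-- A right inverse of `kD7`. -/
def kN7 : Matrix (Fin 5) (Fin 3) (ZMod 7) :=
  !![0, 3, 3; 2, 4, 0; 0, 0, 0; 6, 6, 3; 0, 0, 0]

theorem kD7_mul_kN7 : kD7 * kN7 = 1 := by
  decide

/-- **Kummer's lemma** for `p = 7`. -/
theorem kummerLemma_seven (K : Type) [Field K] [NumberField K] [IsCyclotomicExtension {7} ℚ K] :
    KummerLemma 7 K := by
  have : Fact (Nat.Prime 7) := ⟨by norm_num⟩
  refine kummerLemma_of_certificate 7 (by norm_num) K 3 5 rfl rfl kD7 kN7 kD7_mul_kN7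
    ![6, 2, 3] (by decide) ?_
  have hr : (AdjoinRoot.root (X ^ 5 : (ZMod 7)[X])) ^ 5 = 0 := by
    rw [← AdjoinRoot.mk_X, ← map_pow, AdjoinRoot.mk_self]
  have hp : (7 : AdjoinRoot (X ^ 5 : (ZMod 7)[X])) = 0 := by
    exact_mod_cast natCast_self_eq_zero_of_algebra 7 (AdjoinRoot (X ^ 5 : (ZMod 7)[X]))
  generalize AdjoinRoot.root (X ^ 5 : (ZMod 7)[X]) = r at hr ⊢
  intro i
  fin_cases i
  · simp [Finset.sum_range_succ, Fin.sum_univ_succ, kD7, map_ofNat]
    linear_combination ((212) + (172) * r + (102) * r ^ 2 + (37) * r ^ 3 + (6) * r ^ 4) * hr + ((3) + (8) * r + (18) * r ^ 2 + (26) * r ^ 3 + (31) * r ^ 4) * hp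
  · simp [Finset.sum_range_succ, Fin.sum_univ_succ, kD7, map_ofNat]
    linear_combination ((2)) * hr + ((1) + (2) * r + (1) * r ^ 2 + (1) * r ^ 3 + (1) * r ^ 4) * hp
  · simp [Finset.sum_range_succ, Fin.sum_univ_succ, kD7, map_ofNat]
    linear_combination ((13) + (3) * r) * hr + ((1) * r + (1) * r ^ 2 + (2) * r ^ 3 + (3) * r ^ 4) * hp

end Fermat.Agent.Kummer
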