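import Mathlib

set_option autoImplicit false

/-!
# Project KUMMER: ring homomorphisms out of the ring of integers of a cyclotomic field

For a primitive `n`-th root of unity `ζ` in an `n`-th cyclotomic extension `K` of `ℚ` and a root
`x` of the `n`-th cyclotomic polynomial in a commutative ring `R`, there is a (unique) ring
homomorphism `𝓞 K →+* R` sending `ζ` to `x`.
-/

namespace Fermat.Agent.Kummer

open NumberField Polynomial

variable {n : ℕ} [NeZero n] {K : Type} [Field K] [NumberField K] [IsCyclotomicExtension {n} ℚ K]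
  {ζ : K}

omit [IsCyclotomicExtension {n} ℚ K] in
/-- The minimal polynomial over `ℤ` of `ζ` viewed in `𝓞 K` is the cyclotomic polynomial. -/
theorem minpoly_toInteger (hζ : IsPrimitiveRoot ζ n) :
    minpoly ℤ hζ.toInteger = cyclotomic n ℤ := by
  rw [cyclotomic_eq_minpoly hζ (NeZero.pos n)]
  exact (minpoly.algebraMap_eq (A := ℤ) (B := 𝓞 K) (B' := K) RingOfIntegers.coe_injective
    hζ.toInteger).symm

/-- Every element of `𝓞 K` is an integer polynomial in `ζ`, of degree `< φ n`. -/
theorem exists_aeval_toInteger_lt (hζ : IsPrimitiveRoot ζ n) (a : 𝓞 K) :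
    ∃ g : ℤ[X], g.natDegree < n.totient ∧ a = aeval hζ.toInteger g := by
  obtain ⟨g, hg, h⟩ := hζ.integralPowerBasis.exists_eq_aeval a
  rw [hζ.integralPowerBasis_dim] at hg
  rw [hζ.integralPowerBasis_gen] at h
  exact ⟨g, hg, h⟩

/-- Every element of `𝓞 K` is an integer polynomial in `ζ`. -/
theorem exists_aeval_toInteger (hζ : IsPrimitiveRoot ζ n) (a : 𝓞 K) :
    ∃ g : ℤ[X], a = aeval hζ.toInteger g := by
  obtain ⟨g, -, h⟩ := exists_aeval_toInteger_lt hζ a
  exact ⟨g, h⟩

theorem aeval_minpoly_integralPowerBasis_gen (hζ : IsPrimitiveRoot ζ n) {R : Type*} [CommRing R]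
    (x : R) (hx : (cyclotomic n R).eval x = 0) :
    aeval x (minpoly ℤ hζ.integralPowerBasis.gen) = 0 := by
  rw [hζ.integralPowerBasis_gen, minpoly_toInteger hζ, aeval_def, eval₂_eq_eval_map,
    algebraMap_int_eq, map_cyclotomic_int n R]
  exact hx

/-- The `ℤ`-algebra homomorphism `𝓞 K → R` sending `ζ` to a root `x` of the cyclotomic
polynomial. -/
noncomputable def cycLiftAlg (hζ : IsPrimitiveRoot ζ n) {R : Type*} [CommRing R] (x : R)
    (hx : (cyclotomic n R).eval x = 0) : 𝓞 K →ₐ[ℤ] R :=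
  hζ.integralPowerBasis.lift x (aeval_minpoly_integralPowerBasis_gen hζ x hx)

/-- The ring homomorphism `𝓞 K → R` sending `ζ` to a root `x` of the cyclotomic polynomial. -/
noncomputable def cycLift (hζ : IsPrimitiveRoot ζ n) {R : Type*} [CommRing R] (x : R)
    (hx : (cyclotomic n R).eval x = 0) : 𝓞 K →+* R :=
  (cycLiftAlg hζ x hx).toRingHom

theorem cycLiftAlg_toInteger (hζ : IsPrimitiveRoot ζ n) {R : Type*} [CommRing R] (x : R)
    (hx : (cyclotomic n R).eval x = 0) : cycLiftAlg hζ x hx hζ.toInteger = x :=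
  calc cycLiftAlg hζ x hx hζ.toInteger
      = cycLiftAlg hζ x hx hζ.integralPowerBasis.gen := by rw [hζ.integralPowerBasis_gen]
    _ = x := hζ.integralPowerBasis.lift_gen x (aeval_minpoly_integralPowerBasis_gen hζ x hx)

@[simp]
theorem cycLift_toInteger (hζ : IsPrimitiveRoot ζ n) {R : Type*} [CommRing R] (x : R)
    (hx : (cyclotomic n R).eval x = 0) : cycLift hζ x hx hζ.toInteger = x :=
  cycLiftAlg_toInteger hζ x hx

theorem cycLift_aeval (hζ : IsPrimitiveRoot ζ n) {R : Type*} [CommRing R] (x : R)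
    (hx : (cyclotomic n R).eval x = 0) (g : ℤ[X]) :
    cycLift hζ x hx (aeval hζ.toInteger g) = aeval x g := by
  have h := aeval_algHom_apply (cycLiftAlg hζ x hx) hζ.toInteger g
  rw [cycLiftAlg_toInteger hζ x hx] at h
  exact h.symm

theorem cycLift_intCast (hζ : IsPrimitiveRoot ζ n) {R : Type*} [CommRing R] (x : R)
    (hx : (cyclotomic n R).eval x = 0) (m : ℤ) : cycLift hζ x hx (m : 𝓞 K) = (m : R) :=
  map_intCast _ m

/-- Two ring homomorphisms out of `𝓞 K` agreeing at `ζ` are equal. -/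
theorem ringHom_ext_toInteger (hζ : IsPrimitiveRoot ζ n) {R : Type*} [CommRing R]
    {f g : 𝓞 K →+* R} (h : f hζ.toInteger = g hζ.toInteger) : f = g := by
  ext a
  obtain ⟨q, rfl⟩ := exists_aeval_toInteger hζ a
  rw [aeval_def, hom_eval₂, hom_eval₂, h]
  congr 1
  exact Subsingleton.elim _ _

end Fermat.Agent.Kummer
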