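import Mathlib

/-!
# Project KUMMER, shared lemma: an explicit principal prime above `q` in `ℤ[ζ_p]`

`K` is a `p`-th cyclotomic field, `ζ` a primitive `p`-th root of unity, `O = 𝓞 K`.

* `ppLift hζ x hx : 𝓞 K →+* R` : the ring hom with `ζ ↦ x`, for a root `x` of `cyclotomic p R`.
* `pp_exists_aeval` : every element of `𝓞 K` is `aeval ζ g`, `g : ℤ[X]`.
* `exists_principal_primesOver` : if `m : ℤ[X]` has irreducible reduction `m̄` mod `q` dividing
  `cyclotomic p (ZMod q)` and `α β γ u v : 𝓞 K` satisfy `α * β = q`, `m(ζ) = α * γ`,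
  `α = q * u + m(ζ) * v`, then `span {α}` is a prime of `𝓞 K` over `q`; in particular
  `∃ P ∈ primesOver (span {(q : ℤ)}) (𝓞 K), Submodule.IsPrincipal P`.
* `exists_principal_primesOver_of_poly` : the same with all data given by polynomial identities in
  `ℤ[X]` modulo `cyclotomic p ℤ`.
-/

set_option autoImplicit false

namespace Fermat.Agent.Kummer

open NumberField Polynomial Ideal

noncomputable section

variable {p : ℕ} [Fact p.Prime] {K : Type} [Field K] [NumberField K]
  [IsCyclotomicExtension {p} ℚ K] {ζ : K}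

omit [IsCyclotomicExtension {p} ℚ K] in
theorem pp_minpoly_toInteger (hζ : IsPrimitiveRoot ζ p) :
    minpoly ℤ hζ.toInteger = cyclotomic p ℤ := by
  have h1 : minpoly ℤ (algebraMap (𝓞 K) K hζ.toInteger) = minpoly ℤ hζ.toInteger :=
    minpoly.algebraMap_eq RingOfIntegers.coe_injective hζ.toInteger
  rw [← h1, cyclotomic_eq_minpoly hζ (Fact.out : p.Prime).pos]
  rfl

omit [IsCyclotomicExtension {p} ℚ K] in
theorem pp_aeval_cyclotomic (hζ : IsPrimitiveRoot ζ p) :
    aeval hζ.toInteger (cyclotomic p ℤ) = 0 := by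
  rw [← pp_minpoly_toInteger hζ]
  exact minpoly.aeval ℤ hζ.toInteger

/-- The ring hom `𝓞 K →+* R` with `ζ ↦ x`, for a root `x` of the `p`-th cyclotomic polynomial. -/
def ppLift (hζ : IsPrimitiveRoot ζ p) {R : Type*} [CommRing R] (x : R)
    (hx : (cyclotomic p R).eval x = 0) : 𝓞 K →+* R :=
  (hζ.integralPowerBasis.lift x (by
    rw [IsPrimitiveRoot.integralPowerBasis_gen, pp_minpoly_toInteger hζ, aeval_def, eval₂_eq_eval_map,
      map_cyclotomic]
    exact hx)).toRingHom

theorem ppLift_toInteger (hζ : IsPrimitiveRoot ζ p) {R : Type*} [CommRing R] (x : R)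
    (hx : (cyclotomic p R).eval x = 0) : ppLift hζ x hx hζ.toInteger = x := by
  have h := hζ.integralPowerBasis.lift_gen x (by
    rw [IsPrimitiveRoot.integralPowerBasis_gen, pp_minpoly_toInteger hζ, aeval_def, eval₂_eq_eval_map,
      map_cyclotomic]
    exact hx)
  have e : hζ.toInteger = hζ.integralPowerBasis.gen := hζ.integralPowerBasis_gen.symm
  rw [e]
  exact h

theorem ppLift_aeval (hζ : IsPrimitiveRoot ζ p) {R : Type*} [CommRing R] (x : R)
    (hx : (cyclotomic p R).eval x = 0) (g : ℤ[X]) :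
    ppLift hζ x hx (aeval hζ.toInteger g) = aeval x g := by
  rw [aeval_def, aeval_def, hom_eval₂, ppLift_toInteger]
  congr 1
  exact RingHom.ext_int _ _

/-- Every element of `𝓞 K` is a polynomial in `ζ` with integer coefficients. -/
theorem pp_exists_aeval (hζ : IsPrimitiveRoot ζ p) (a : 𝓞 K) :
    ∃ g : ℤ[X], a = aeval hζ.toInteger g := by
  obtain ⟨g, hg⟩ := hζ.integralPowerBasis.exists_eq_aeval' a
  rw [IsPrimitiveRoot.integralPowerBasis_gen] at hg
  exact ⟨g, hg⟩

/-- A polynomial over `ℤ` whose reduction mod `q` vanishes is divisible by `q`. -/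
theorem pp_exists_C_mul (q : ℕ) (g : ℤ[X]) (h : g.map (Int.castRingHom (ZMod q)) = 0) :
    ∃ r : ℤ[X], g = C (q : ℤ) * r := by
  have : C (q : ℤ) ∣ g := by
    rw [C_dvd_iff_dvd_coeff]
    intro i
    have h1 := congrArg (fun f => f.coeff i) h
    simp only [coeff_map, coeff_zero, eq_intCast] at h1
    exact (ZMod.intCast_zmod_eq_zero_iff_dvd _ _).mp h1
  exact this

/-- **Explicit principal primes.** -/
theorem span_singleton_mem_primesOver (hζ : IsPrimitiveRoot ζ p) (q : ℕ) [Fact q.Prime]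
    (m : ℤ[X]) (hirr : Irreducible (m.map (Int.castRingHom (ZMod q))))
    (hdvd : m.map (Int.castRingHom (ZMod q)) ∣ cyclotomic p (ZMod q))
    (α β γ u v : 𝓞 K) (h1 : α * β = (q : 𝓞 K)) (h2 : aeval hζ.toInteger m = α * γ)
    (h3 : α = (q : 𝓞 K) * u + aeval hζ.toInteger m * v) :
    span {α} ∈ primesOver (span {(q : ℤ)}) (𝓞 K) := by
  classical
  set mb : (ZMod q)[X] := m.map (Int.castRingHom (ZMod q)) with hmb
  have : Fact (Irreducible mb) := ⟨hirr⟩
  -- the residue field and the reduction map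
  have hroot : (cyclotomic p (AdjoinRoot mb)).eval (AdjoinRoot.root mb) = 0 := by
    rw [← map_cyclotomic p (AdjoinRoot.of mb), eval_map, ← AdjoinRoot.algebraMap_eq, ← aeval_def,
      AdjoinRoot.aeval_eq, AdjoinRoot.mk_eq_zero]
    exact hdvd
  set φ : 𝓞 K →+* AdjoinRoot mb := ppLift hζ (AdjoinRoot.root mb) hroot with hφ
  have hφg : ∀ g : ℤ[X], φ (aeval hζ.toInteger g) =
      AdjoinRoot.mk mb (g.map (Int.castRingHom (ZMod q))) := by
    intro g
    rw [hφ, ppLift_aeval, aeval_def, ← AdjoinRoot.aeval_eq, aeval_def, eval₂_map]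
    exact congrArg (fun f => eval₂ f (AdjoinRoot.root mb) g) (RingHom.ext_int _ _)
  have hφq : φ (q : 𝓞 K) = 0 := by
    rw [map_natCast]
    have h0 : (AdjoinRoot.of mb) (q : ZMod q) = 0 := by
      rw [ZMod.natCast_self, map_zero]
    rwa [map_natCast] at h0
  have hφm : φ (aeval hζ.toInteger m) = 0 := by
    rw [hφg, AdjoinRoot.mk_eq_zero]
  have hker : RingHom.ker φ = span {α} := by
    apply le_antisymm
    · intro a ha
      rw [RingHom.mem_ker] at ha
      obtain ⟨g, rfl⟩ := pp_exists_aeval hζ a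
      rw [hφg, AdjoinRoot.mk_eq_zero] at ha
      obtain ⟨hb, hhb⟩ := ha
      obtain ⟨h, rfl⟩ := Polynomial.map_surjective (Int.castRingHom (ZMod q))
        (ZMod.intCast_surjective) hb
      obtain ⟨r, hr⟩ := pp_exists_C_mul q (g - m * h) (by
        rw [Polynomial.map_sub, Polynomial.map_mul, hhb, sub_self])
      have hg : g = m * h + C (q : ℤ) * r := by rw [← hr]; ring
      have hq : (algebraMap ℤ (𝓞 K)) (q : ℤ) = α * β := by rw [h1]; simp
      rw [hg, map_add, map_mul, map_mul, aeval_C, h2, hq, mem_span_singleton]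
      exact ⟨γ * aeval hζ.toInteger h + β * aeval hζ.toInteger r, by ring⟩
    · rw [span_singleton_le_iff_mem, RingHom.mem_ker, h3, map_add, map_mul, map_mul, hφq, hφm]
      simp
  have hprime : (span {α} : Ideal (𝓞 K)).IsPrime := by
    rw [← hker]
    exact RingHom.ker_isPrime φ
  refine ⟨hprime, ⟨?_⟩⟩
  have hmax : (span {(q : ℤ)} : Ideal ℤ).IsMaximal :=
    PrincipalIdealRing.isMaximal_of_irreducible
      (Nat.prime_iff_prime_int.mp (Fact.out : q.Prime)).irreducible
  refine hmax.eq_of_le ?_ ?_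
  · have := hprime
    exact (Ideal.IsPrime.under ℤ (span {α} : Ideal (𝓞 K))).ne_top
  · rw [span_singleton_le_iff_mem, Ideal.under, Ideal.mem_comap, ← hker, RingHom.mem_ker]
    have : (algebraMap ℤ (𝓞 K)) (q : ℤ) = (q : 𝓞 K) := by simp
    rw [this, hφq]

theorem exists_principal_primesOver (hζ : IsPrimitiveRoot ζ p) (q : ℕ) [Fact q.Prime]
    (m : ℤ[X]) (hirr : Irreducible (m.map (Int.castRingHom (ZMod q))))
    (hdvd : m.map (Int.castRingHom (ZMod q)) ∣ cyclotomic p (ZMod q))
    (α β γ u v : 𝓞 K) (h1 : α * β = (q : 𝓞 K)) (h2 : aeval hζ.toInteger m = α * γ)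
    (h3 : α = (q : 𝓞 K) * u + aeval hζ.toInteger m * v) :
    ∃ P ∈ primesOver (span {(q : ℤ)}) (𝓞 K), Submodule.IsPrincipal P :=
  ⟨span {α}, span_singleton_mem_primesOver hζ q m hirr hdvd α β γ u v h1 h2 h3, ⟨α, rfl⟩⟩

/-- Polynomial form: all data are polynomials in `ℤ[X]`, all identities hold in `ℤ[X]`
(`Φ = cyclotomic p ℤ`): `a * b = q + Φ * Q1`, `a * c = m + Φ * Q2`, `a = m * u + q * w`. -/
theorem exists_principal_primesOver_of_poly (hζ : IsPrimitiveRoot ζ p) (q : ℕ) [Fact q.Prime]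
    (m a b c u w Q1 Q2 : ℤ[X]) (hirr : Irreducible (m.map (Int.castRingHom (ZMod q))))
    (hdvd : m.map (Int.castRingHom (ZMod q)) ∣ cyclotomic p (ZMod q))
    (h1 : a * b = C (q : ℤ) + cyclotomic p ℤ * Q1)
    (h2 : a * c = m + cyclotomic p ℤ * Q2)
    (h3 : a = m * u + C (q : ℤ) * w) :
    ∃ P ∈ primesOver (span {(q : ℤ)}) (𝓞 K), Submodule.IsPrincipal P := by
  have hq : aeval hζ.toInteger (C (q : ℤ)) = (q : 𝓞 K) := by simp
  refine exists_principal_primesOver hζ q m hirr hdvd (aeval hζ.toInteger a)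
    (aeval hζ.toInteger b) (aeval hζ.toInteger c) (aeval hζ.toInteger w) (aeval hζ.toInteger u)
    ?_ ?_ ?_
  · rw [← map_mul, h1, map_add, map_mul, pp_aeval_cyclotomic hζ, zero_mul, add_zero, hq]
  · rw [← map_mul, h2, map_add, map_mul, pp_aeval_cyclotomic hζ, zero_mul, add_zero]
  · conv_lhs => rw [h3]
    rw [map_add, map_mul, map_mul, hq]
    ring

/-- Degree-one case: `m = X - a` with `a` a root of the `p`-th cyclotomic polynomial mod `q`. -/
theorem exists_principal_primesOver_of_poly_linear (hζ : IsPrimitiveRoot ζ p) (q : ℕ)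
    [Fact q.Prime] (r : ℤ) (a b c u w Q1 Q2 : ℤ[X])
    (hr : ∑ i ∈ Finset.range p, (r : ZMod q) ^ i = 0)
    (h1 : a * b = C (q : ℤ) + cyclotomic p ℤ * Q1)
    (h2 : a * c = (X - C r) + cyclotomic p ℤ * Q2)
    (h3 : a = (X - C r) * u + C (q : ℤ) * w) :
    ∃ P ∈ primesOver (span {(q : ℤ)}) (𝓞 K), Submodule.IsPrincipal P := by
  have hm : (X - C r : ℤ[X]).map (Int.castRingHom (ZMod q)) = X - C (r : ZMod q) := by simp
  refine exists_principal_primesOver_of_poly hζ q (X - C r) a b c u w Q1 Q2 ?_ ?_ h1 h2 h3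
  · rw [hm]
    exact irreducible_X_sub_C _
  · rw [hm, dvd_iff_isRoot, IsRoot.def, cyclotomic_prime, eval_finsetSum]
    simpa using hr

end

end Fermat.Agent.Kummer
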