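import Mathlib
import Fermat.Agent.Kummer.PrincipalPrime

/-!
# Project KUMMER: `ℤ[ζ₁₁]` is a principal ideal domain

Minkowski bound `< 60`; the primes `q ≤ 59` other than `11` and `23` have `q ^ f > 59` where `f`
is the order of `q` modulo `11`; the prime over `11` is `(ζ - 1)`; and `23` has the principal
prime factor `(1 + ζ + ζ ^ 3)`.
-/

set_option autoImplicit false

namespace Fermat.Agent.Kummer

open NumberField Polynomial InfinitePlace Nat Real IsCyclotomicExtension.Rat Module Ideal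

theorem minkowski_eleven (K : Type) [Field K] [NumberField K] [IsCyclotomicExtension {11} ℚ K] :
    ⌊(4 / π) ^ nrComplexPlaces K *
      ((finrank ℚ K)! / (finrank ℚ K) ^ (finrank ℚ K) * √|(discr K : ℝ)|)⌋₊ ≤ 59 := by
  have : Fact (Nat.Prime 11) := ⟨by norm_num⟩
  rw [discr_prime 11 K, IsCyclotomicExtension.finrank (n := 11) K
    (cyclotomic.irreducible_rat (by simp)), nrComplexPlaces_eq_totient_div_two 11,
    totient_prime (by norm_num : Nat.Prime 11)]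
  have h1 : ((11 - 1) / 2 : ℕ) = 5 := by norm_num
  have h2 : ((11 - 1 : ℕ)! : ℝ) = 3628800 := by
    have : (11 - 1 : ℕ)! = 3628800 := by decide
    rw [this]; norm_num
  have h3 : √|(((-1) ^ ((11 - 1) / 2) * ((11 : ℕ) : ℤ) ^ (11 - 2) : ℤ) : ℝ)| ≤ 48560 := by
    rw [Real.sqrt_le_left (by norm_num)]
    norm_num
  have h4 : (4 / π) ^ 5 ≤ (4 / 3.14) ^ 5 := by
    gcongr
    exact pi_gt_d2.le
  rw [h1, h2]
  have hx : (4 / π) ^ 5 * ((3628800 : ℝ) / ((11 - 1 : ℕ) : ℝ) ^ (11 - 1) *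
      √|(((-1) ^ 5 * ((11 : ℕ) : ℤ) ^ (11 - 2) : ℤ) : ℝ)|) < 60 := by
    have h3' : √|(((-1) ^ 5 * ((11 : ℕ) : ℤ) ^ (11 - 2) : ℤ) : ℝ)| ≤ 48560 := h3
    calc (4 / π) ^ 5 * ((3628800 : ℝ) / ((11 - 1 : ℕ) : ℝ) ^ (11 - 1) *
          √|(((-1) ^ 5 * ((11 : ℕ) : ℤ) ^ (11 - 2) : ℤ) : ℝ)|)
        ≤ (4 / 3.14) ^ 5 * ((3628800 : ℝ) / ((11 - 1 : ℕ) : ℝ) ^ (11 - 1) * 48560) := by
          gcongr
      _ < 60 := by norm_num
  exact Nat.lt_succ_iff.mp ((Nat.floor_lt (by positivity)).mpr (by exact_mod_cast hx))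

theorem cyclotomic_eleven_eq :
    cyclotomic 11 ℤ = 1 + X + X^2 + X^3 + X^4 + X^5 + X^6 + X^7 + X^8 + X^9 + X^10 := by
  have : Fact (Nat.Prime 11) := ⟨by norm_num⟩
  rw [cyclotomic_prime]
  simp [Finset.sum_range_succ]

theorem sum_pow_eleven_one : ∑ i ∈ Finset.range 11, ((1 : ℤ) : ZMod 11) ^ i = 0 := by decide

theorem sum_pow_eleven_four : ∑ i ∈ Finset.range 11, ((4 : ℤ) : ZMod 23) ^ i = 0 := by decide

/-- The prime `(ζ - 1)` over `11`. -/
theorem principal_over_eleven (K : Type) [Field K] [NumberField K]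
    [IsCyclotomicExtension {11} ℚ K] :
    ∃ P ∈ primesOver (span {((11 : ℕ) : ℤ)}) (𝓞 K), Submodule.IsPrincipal P := by
  have : Fact (Nat.Prime 11) := ⟨by norm_num⟩
  have hζ := IsCyclotomicExtension.zeta_spec 11 ℚ K
  refine exists_principal_primesOver_of_poly_linear hζ 11 1
    (X - 1)
    (-(10 + 9*X + 8*X^2 + 7*X^3 + 6*X^4 + 5*X^5 + 4*X^6 + 3*X^7 + 2*X^8 + X^9))
    1 1 0 (-1) 0 sum_pow_eleven_one ?_ ?_ ?_
  · rw [cyclotomic_eleven_eq]
    simp only [Nat.cast_ofNat, map_ofNat]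
    ring
  · simp only [map_one]
    ring
  · simp only [map_one]
    ring

/-- The prime `(1 + ζ + ζ ^ 3)` over `23`. -/
theorem principal_over_twentythree (K : Type) [Field K] [NumberField K]
    [IsCyclotomicExtension {11} ℚ K] :
    ∃ P ∈ primesOver (span {((23 : ℕ) : ℤ)}) (𝓞 K), Submodule.IsPrincipal P := by
  have : Fact (Nat.Prime 11) := ⟨by norm_num⟩
  have : Fact (Nat.Prime 23) := ⟨by norm_num⟩
  have hζ := IsCyclotomicExtension.zeta_spec 11 ℚ K
  refine exists_principal_primesOver_of_poly_linear hζ 23 4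
    (1 + X + X^3)
    (-2 - 14*X - 17*X^2 - 12*X^3 - 5*X^4 - 9*X^5 - 10*X^6 - 16*X^7 - 6*X^8 - 15*X^9)
    (1 + 3*X + 3*X^2 + 2*X^3 + X^4 + 2*X^5 + 2*X^6 + 3*X^7 + X^8 + 3*X^9)
    (17 + 4*X + X^2) 3 (-25 + 9*X - 15*X^2) (5 - 2*X + 3*X^2) sum_pow_eleven_four ?_ ?_ ?_
  · rw [cyclotomic_eleven_eq]
    simp only [Nat.cast_ofNat, map_ofNat]
    ring
  · rw [cyclotomic_eleven_eq]
    simp only [map_ofNat]
    ring
  · simp only [Nat.cast_ofNat, map_ofNat]
    ring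

/-- For a prime `q ≤ 59` other than `11`, `23`, any power `q ^ f ≡ 1 mod 11` with `f > 0`
exceeds `59`. -/
theorem pow_order_eleven_gt (q : ℕ) (hq : q.Prime) (hq59 : q ≤ 59) (h11 : q ≠ 11) (h23 : q ≠ 23)
    (f : ℕ) (hf : 0 < f) (h : ((q : ZMod 11)) ^ f = 1) : 59 < q ^ f := by
  by_contra hlt
  rw [not_lt] at hlt
  have hf6 : f < 6 := by
    by_contra h6
    rw [not_lt] at h6
    have : 2 ^ 6 ≤ q ^ f :=
      (Nat.pow_le_pow_left hq.two_le 6).trans (Nat.pow_le_pow_right hq.pos h6)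
    omega
  interval_cases f <;> interval_cases q <;>
    first
    | omega
    | (exfalso; revert hq; norm_num; done)
    | (exfalso; revert h; decide)

theorem pid_eleven (K : Type) [Field K] [NumberField K] [IsCyclotomicExtension {11} ℚ K] :
    IsPrincipalIdealRing (𝓞 K) := by
  have : Fact (Nat.Prime 11) := ⟨by norm_num⟩
  have : IsGalois ℚ K := IsCyclotomicExtension.isGalois {11} ℚ K
  have hM := minkowski_eleven K
  refine RingOfIntegers.isPrincipalIdealRing_of_isPrincipal_of_lt_or_isPrincipal_of_mem_primesOver_of_mem_Icc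
    (fun q hq hqp ↦ ?_)
  have hq59 : q ≤ 59 := (Finset.mem_Icc.mp hq).2.trans hM
  by_cases h11 : q = 11
  · subst h11
    obtain ⟨P, hP, hPp⟩ := principal_over_eleven K
    exact ⟨P, hP, Or.inr hPp⟩
  by_cases h23 : q = 23
  · subst h23
    obtain ⟨P, hP, hPp⟩ := principal_over_twentythree K
    exact ⟨P, hP, Or.inr hPp⟩
  have : Fact q.Prime := ⟨hqp⟩
  obtain ⟨⟨P, hP1, hP2⟩⟩ := (span {(q : ℤ)}).nonempty_primesOver (S := 𝓞 K)
  refine ⟨P, ⟨hP1, hP2⟩, Or.inl ?_⟩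
  have hnd : ¬ q ∣ 11 := by
    intro hd
    exact h11 ((Nat.prime_dvd_prime_iff_eq hqp (by norm_num)).mp hd)
  rw [inertiaDeg_eq_of_not_dvd q K P hnd]
  refine lt_of_le_of_lt hM (pow_order_eleven_gt q hqp hq59 h11 h23 _ ?_ (pow_orderOf_eq_one _))
  refine orderOf_pos_iff.mpr ?_
  exact isOfFinOrder_iff_pow_eq_one.mpr ⟨10, by norm_num, by
    have hu : IsUnit ((q : ZMod 11)) := by
      rw [ZMod.isUnit_iff_coprime]
      exact (Nat.coprime_primes hqp (by norm_num)).mpr h11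
    have := ZMod.pow_card_sub_one_eq_one (p := 11) (a := (q : ZMod 11)) hu.ne_zero
    simpa using this⟩

end Fermat.Agent.Kummer
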