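import Mathlib

/-!
# The ring of integers of `ℚ(ζ₁₃)` is a principal ideal domain

Minkowski bound `< 308`; the only primes `q ≤ 307` having a prime of norm `≤ 307` above them are
`13` (the prime `(ζ - 1)`), `3` (norm `27`) and `53, 79, 131, 157` (norm `q`); for each of the
latter five an explicit generator is given and checked through Kummer–Dedekind.
-/

set_option autoImplicit false

namespace Fermat.Agent.Kummer

section Skeleton

open NumberField Module InfinitePlace Ideal Nat Real IsCyclotomicExtension.Rat Polynomial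

/-- Minkowski bound for `ℚ(ζ₁₃)` is `< 308`. -/
theorem minkowski_thirteen_lt (K : Type) [Field K] [NumberField K]
    [IsCyclotomicExtension {13} ℚ K] :
    (4 / π) ^ nrComplexPlaces K *
      ((finrank ℚ K)! / (finrank ℚ K) ^ (finrank ℚ K) * √|discr K|) < 308 := by
  have h13 : Fact (Nat.Prime 13) := ⟨by norm_num⟩
  rw [discr_prime 13 K, IsCyclotomicExtension.finrank (n := 13) K
    (cyclotomic.irreducible_rat (by simp)), nrComplexPlaces_eq_totient_div_two 13,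
    totient_prime h13.out]
  have h1 : ((13 - 1) / 2 : ℕ) = 6 := by norm_num
  have h2 : (13 - 1 : ℕ) = 12 := by norm_num
  have h3 : (13 - 2 : ℕ) = 11 := by norm_num
  rw [h1, h2, h3]
  have hd : |(((-1 : ℤ) ^ 6 * (13 : ℕ) ^ 11 : ℤ) : ℝ)| = (13 ^ 5 : ℝ) ^ 2 * 13 := by
    push_cast
    rw [abs_of_pos (by positivity)]
    norm_num
  rw [hd, Real.sqrt_mul (by positivity), Real.sqrt_sq (by positivity)]
  have hs : √(13 : ℝ) < 3.6056 := by
    rw [Real.sqrt_lt' (by norm_num)]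
    norm_num
  have hpi : (4 / π) ^ 6 < (4 / 3.14 : ℝ) ^ 6 := by
    gcongr
    exact Real.pi_gt_d2
  have hfact : ((12 ! : ℕ) : ℝ) = 479001600 := by
    norm_num [Nat.factorial]
  rw [hfact]
  calc (4 / π) ^ 6 * (479001600 / ((12 : ℕ) : ℝ) ^ 12 * (13 ^ 5 * √13))
      < (4 / 3.14 : ℝ) ^ 6 * (479001600 / ((12 : ℕ) : ℝ) ^ 12 * (13 ^ 5 * 3.6056)) := by
        gcongr
    _ < 308 := by norm_num

/-- lower bounds for `q ^ orderOf (q : ZMod 13)` for the primes `q < 308`, `q ≠ 3, 13`,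
`q ≢ 1 mod 13`. -/
theorem pid13_pow_orderOf_ge (q : ℕ) (hq : q.Prime) (h13 : q ≠ 13) (h3 : q ≠ 3)
    (h1 : q % 13 ≠ 1) : 308 ≤ q ^ orderOf (q : ZMod 13) := by
  have hunit : IsUnit ((q : ℕ) : ZMod 13) := by
    rw [ZMod.isUnit_iff_coprime]
    exact (Nat.coprime_primes hq (by norm_num)).mpr h13
  have hpos : 0 < orderOf ((q : ℕ) : ZMod 13) := by
    obtain ⟨u, hu⟩ := hunit
    rw [← hu, orderOf_units]
    exact orderOf_pos u
  have hne1 : orderOf ((q : ℕ) : ZMod 13) ≠ 1 := by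
    rw [Ne, orderOf_eq_one_iff]
    intro h
    apply h1
    have h' : ((q : ℕ) : ZMod 13) = ((1 : ℕ) : ZMod 13) := by rw [h, Nat.cast_one]
    exact (ZMod.natCast_eq_natCast_iff' q 1 13).mp h'
  have h2 : 2 ≤ orderOf ((q : ℕ) : ZMod 13) := by omega
  by_cases hq18 : 18 ≤ q
  · calc 308 ≤ 18 ^ 2 := by norm_num
      _ ≤ q ^ 2 := Nat.pow_le_pow_left hq18 2
      _ ≤ q ^ orderOf ((q : ℕ) : ZMod 13) := Nat.pow_le_pow_right hq.pos h2
  · push Not at hq18
    have key : ∀ (k : ℕ), (∀ m, 0 < m → m < k → ((q : ℕ) : ZMod 13) ^ m ≠ 1) →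
        k ≤ orderOf ((q : ℕ) : ZMod 13) := by
      intro k hk
      by_contra hlt
      push Not at hlt
      exact hk _ hpos hlt (pow_orderOf_eq_one _)
    interval_cases q <;> try (exfalso; revert hq; norm_num; done)
    · -- q = 2
      have := key 9 (by intro m hm0 hm; interval_cases m <;> decide)
      calc 308 ≤ 2 ^ 9 := by norm_num
        _ ≤ _ := Nat.pow_le_pow_right (by norm_num) this
    · exact absurd rfl h3
    · have := key 4 (by intro m hm0 hm; interval_cases m <;> decide)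
      calc 308 ≤ 5 ^ 4 := by norm_num
        _ ≤ _ := Nat.pow_le_pow_right (by norm_num) this
    · have := key 3 (by intro m hm0 hm; interval_cases m <;> decide)
      calc 308 ≤ 7 ^ 3 := by norm_num
        _ ≤ _ := Nat.pow_le_pow_right (by norm_num) this
    · have := key 3 (by intro m hm0 hm; interval_cases m <;> decide)
      calc 308 ≤ 11 ^ 3 := by norm_num
        _ ≤ _ := Nat.pow_le_pow_right (by norm_num) this
    · exact absurd rfl h13
    · have := key 3 (by intro m hm0 hm; interval_cases m <;> decide)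
      calc 308 ≤ 17 ^ 3 := by norm_num
        _ ≤ _ := Nat.pow_le_pow_right (by norm_num) this

/-- the primes `q < 308` with `q ≡ 1 mod 13`. -/
theorem pid13_primes_one_mod (q : ℕ) (hq : q.Prime) (hlt : q < 308) (h1 : q % 13 = 1) :
    q = 53 ∨ q = 79 ∨ q = 131 ∨ q = 157 := by
  obtain ⟨k, rfl⟩ : ∃ k, q = 13 * k + 1 := ⟨q / 13, by omega⟩
  have hk : k < 24 := by omega
  interval_cases k <;> first | omega | (exfalso; revert hq; norm_num)

/-- `𝓞 ℚ(ζ₁₃)` is a PID, given principal primes above `3, 53, 79, 131, 157`. -/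
theorem pid_thirteen_of_principal (K : Type) [Field K] [NumberField K]
    [IsCyclotomicExtension {13} ℚ K]
    (hprin : ∀ q : ℕ, q = 3 ∨ q = 53 ∨ q = 79 ∨ q = 131 ∨ q = 157 →
      ∃ P ∈ primesOver (span {(q : ℤ)}) (𝓞 K), Submodule.IsPrincipal P) :
    IsPrincipalIdealRing (𝓞 K) := by
  have h13 : Fact (Nat.Prime 13) := ⟨by norm_num⟩
  have : IsGalois ℚ K := IsCyclotomicExtension.isGalois {13} ℚ K
  apply RingOfIntegers.isPrincipalIdealRing_of_isPrincipal_of_lt_or_isPrincipal_of_mem_primesOver_of_mem_Icc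
  intro q hq hqp
  have hM := minkowski_thirteen_lt K
  have hfl : ⌊(4 / π) ^ nrComplexPlaces K *
      ((finrank ℚ K)! / (finrank ℚ K) ^ (finrank ℚ K) * √|discr K|)⌋₊ < 308 :=
    (Nat.floor_lt (by positivity)).mpr (by exact_mod_cast hM)
  have hq308 : q < 308 := lt_of_le_of_lt (Finset.mem_Icc.mp hq).2 hfl
  have : Fact q.Prime := ⟨hqp⟩
  by_cases hq13 : q = 13
  · subst hq13
    obtain ⟨⟨P, hP1, hP2⟩⟩ := (span {((13 : ℕ) : ℤ)}).nonempty_primesOver (S := 𝓞 K)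
    refine ⟨P, ⟨hP1, hP2⟩, Or.inr ?_⟩
    have hζ := IsCyclotomicExtension.zeta_spec 13 ℚ K
    rw [eq_span_zeta_sub_one_of_liesOver' 13 K hζ P]
    exact ⟨⟨_, rfl⟩⟩
  by_cases hq3 : q = 3
  · obtain ⟨P, hP, hPp⟩ := hprin q (Or.inl hq3)
    exact ⟨P, hP, Or.inr hPp⟩
  by_cases hq1 : q % 13 = 1
  · obtain ⟨P, hP, hPp⟩ := hprin q (Or.inr (pid13_primes_one_mod q hqp hq308 hq1))
    exact ⟨P, hP, Or.inr hPp⟩
  obtain ⟨⟨P, hP1, hP2⟩⟩ := (span {((q : ℕ) : ℤ)}).nonempty_primesOver (S := 𝓞 K)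
  refine ⟨P, ⟨hP1, hP2⟩, Or.inl ?_⟩
  have hnd : ¬ q ∣ 13 := by
    rw [Nat.prime_dvd_prime_iff_eq hqp (by norm_num)]
    exact hq13
  rw [inertiaDeg_eq_of_not_dvd q K P hnd]
  exact lt_of_lt_of_le hfl (pid13_pow_orderOf_ge q hqp hq13 hq3 hq1)

end Skeleton

section PrincipalPrime

open NumberField Polynomial Ideal RingOfIntegers NumberField.Ideal

/-- Kummer–Dedekind: an explicit principal prime over `q` in a cyclotomic ring of integers.
`Q` is an integer polynomial whose reduction mod `q` is a monic irreducible factor of the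
cyclotomic polynomial; `α` generates the ideal `(q, Q(ζ))`. -/
theorem pid13_exists_isPrincipal_primesOver {n : ℕ} [NeZero n] {K : Type} [Field K] [NumberField K]
    [IsCyclotomicExtension {n} ℚ K] {ζ : K} (hζ : IsPrimitiveRoot ζ n) (q : ℕ) [Fact q.Prime]
    (Q : ℤ[X]) (hQm : (Q.map (Int.castRingHom (ZMod q))).Monic)
    (hQi : Irreducible (Q.map (Int.castRingHom (ZMod q))))
    (hQd : Q.map (Int.castRingHom (ZMod q)) ∣ cyclotomic n (ZMod q))
    (α β γ u w : 𝓞 K) (h1 : α * β = (q : 𝓞 K)) (h2 : α * γ = aeval hζ.toInteger Q)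
    (h3 : α = aeval hζ.toInteger Q * u + (q : 𝓞 K) * w) :
    ∃ P ∈ primesOver (span {(q : ℤ)}) (𝓞 K), Submodule.IsPrincipal P := by
  classical
  have hexp : ¬ q ∣ exponent hζ.toInteger := by
    rw [exponent_eq_one_iff.mpr (IsCyclotomicExtension.Rat.adjoin_singleton_eq_top hζ)]
    exact (Fact.out : q.Prime).not_dvd_one
  have hmin : minpoly ℤ hζ.toInteger = cyclotomic n ℤ := by
    rw [cyclotomic_eq_minpoly hζ (NeZero.pos _), ← RingOfIntegers.minpoly_coe]
    rfl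
  have hQ : Q.map (Int.castRingHom (ZMod q)) ∈ monicFactorsMod hζ.toInteger q := by
    rw [Multiset.mem_toFinset, Polynomial.mem_normalizedFactors_iff
      (map_monic_ne_zero (minpoly.monic hζ.toInteger.isIntegral))]
    refine ⟨hQi, hQm, ?_⟩
    rw [hmin, map_cyclotomic]
    exact hQd
  have hspan := primesOverSpanEquivMonicFactorsMod_symm_apply_eq_span hexp hQ
  have hmem := ((primesOverSpanEquivMonicFactorsMod hexp).symm ⟨_, hQ⟩).prop
  rw [hspan] at hmem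
  have heq : span {(q : 𝓞 K), aeval hζ.toInteger Q} = span {α} := by
    apply le_antisymm
    · rw [span_le]
      intro x hx
      rcases hx with rfl | rfl
      · exact mem_span_singleton.mpr ⟨β, h1.symm⟩
      · exact mem_span_singleton.mpr ⟨γ, h2.symm⟩
    · rw [span_le, Set.singleton_subset_iff, SetLike.mem_coe, mem_span_pair]
      exact ⟨w, u, by rw [h3]; ring⟩
  rw [heq] at hmem
  exact ⟨_, hmem, ⟨⟨α, rfl⟩⟩⟩

end PrincipalPrime

section Data

open NumberField Polynomial Ideal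

theorem pid13_sum_zeta {K : Type} [Field K] [NumberField K] [IsCyclotomicExtension {13} ℚ K]
    {ζ : K} (hζ : IsPrimitiveRoot ζ 13) :
    1 + hζ.toInteger + hζ.toInteger ^ 2 + hζ.toInteger ^ 3 + hζ.toInteger ^ 4 +
      hζ.toInteger ^ 5 + hζ.toInteger ^ 6 + hζ.toInteger ^ 7 + hζ.toInteger ^ 8 +
      hζ.toInteger ^ 9 + hζ.toInteger ^ 10 + hζ.toInteger ^ 11 + hζ.toInteger ^ 12 = 0 := by
  have h := hζ.toInteger_isPrimitiveRoot.geom_sum_eq_zero (by norm_num : 1 < 13)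
  simpa [Finset.sum_range_succ] using h

theorem pid13_root_fiftyThree : ∑ x ∈ Finset.range 13, (36 : ZMod 53) ^ x = 0 := by decide

theorem pid13_principal_fiftyThree (K : Type) [Field K] [NumberField K]
    [IsCyclotomicExtension {13} ℚ K] :
    ∃ P ∈ primesOver (span {((53 : ℕ) : ℤ)}) (𝓞 K), Submodule.IsPrincipal P := by
  have : Fact (Nat.Prime 53) := ⟨by norm_num⟩
  have : Fact (Nat.Prime 13) := ⟨by norm_num⟩
  have hζ := IsCyclotomicExtension.zeta_spec 13 ℚ K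
  have hΦ := pid13_sum_zeta hζ
  set z : 𝓞 K := hζ.toInteger with hz
  have hmap : (X - C (36 : ℤ) : ℤ[X]).map (Int.castRingHom (ZMod 53)) =
      X - C ((36 : ℤ) : ZMod 53) := by
    rw [Polynomial.map_sub, Polynomial.map_X, Polynomial.map_C, eq_intCast]
  have hQ : aeval hζ.toInteger (X - C (36 : ℤ) : ℤ[X]) = z - 36 := by
    rw [map_sub, aeval_X, aeval_C, algebraMap_int_eq, eq_intCast, Int.cast_ofNat]
  refine pid13_exists_isPrincipal_primesOver hζ 53 (X - C (36 : ℤ)) ?_ ?_ ?_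
    (1 + z + z ^ 3) (1 - 24 * z - 35 * z ^ 2 - 25 * z ^ 3 - 10 * z ^ 4 - 14 * z ^ 5 - 20 * z ^ 6 - 29 * z ^ 7 - 16 * z ^ 8 - 23 * z ^ 9 - 7 * z ^ 10 - 36 * z ^ 11)
    (17 * z + 24 * z ^ 2 + 17 * z ^ 3 + 7 * z ^ 4 + 10 * z ^ 5 + 14 * z ^ 6 + 20 * z ^ 7 + 11 * z ^ 8 + 16 * z ^ 9 + 5 * z ^ 10 + 25 * z ^ 11) (1297 + 36 * z + z ^ 2) (881) ?_ ?_ ?_
  · rw [hmap]; exact monic_X_sub_C _
  · rw [hmap]; exact irreducible_X_sub_C _
  · rw [hmap, dvd_iff_isRoot, IsRoot.def, cyclotomic_prime, eval_finsetSum]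
    simp only [eval_pow, eval_X, Int.cast_ofNat]
    exact pid13_root_fiftyThree
  · push_cast
    linear_combination (-52 + 29 * z - 36 * z ^ 2) * hΦ
  · rw [hQ]
    linear_combination (36 - 20 * z + 25 * z ^ 2) * hΦ
  · rw [hQ]
    push_cast
    ring

theorem pid13_root_seventyNine : ∑ x ∈ Finset.range 13, (64 : ZMod 79) ^ x = 0 := by decide

theorem pid13_principal_seventyNine (K : Type) [Field K] [NumberField K]
    [IsCyclotomicExtension {13} ℚ K] :
    ∃ P ∈ primesOver (span {((79 : ℕ) : ℤ)}) (𝓞 K), Submodule.IsPrincipal P := by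
  have : Fact (Nat.Prime 79) := ⟨by norm_num⟩
  have : Fact (Nat.Prime 13) := ⟨by norm_num⟩
  have hζ := IsCyclotomicExtension.zeta_spec 13 ℚ K
  have hΦ := pid13_sum_zeta hζ
  set z : 𝓞 K := hζ.toInteger with hz
  have hmap : (X - C (64 : ℤ) : ℤ[X]).map (Int.castRingHom (ZMod 79)) =
      X - C ((64 : ℤ) : ZMod 79) := by
    rw [Polynomial.map_sub, Polynomial.map_X, Polynomial.map_C, eq_intCast]
  have hQ : aeval hζ.toInteger (X - C (64 : ℤ) : ℤ[X]) = z - 64 := by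
    rw [map_sub, aeval_X, aeval_C, algebraMap_int_eq, eq_intCast, Int.cast_ofNat]
  refine pid13_exists_isPrincipal_primesOver hζ 79 (X - C (64 : ℤ)) ?_ ?_ ?_
    (1 + z - z ^ 4) (24 - 25 * z - 27 * z ^ 2 + 10 * z ^ 3 - 3 * z ^ 4 - 39 * z ^ 5 - 5 * z ^ 6 - 2 * z ^ 7 - 18 * z ^ 8 - 38 * z ^ 9 + 16 * z ^ 10 - 35 * z ^ 11)
    (-19 + 21 * z + 22 * z ^ 2 - 8 * z ^ 3 + 3 * z ^ 4 + 32 * z ^ 5 + 4 * z ^ 6 + 2 * z ^ 7 + 15 * z ^ 8 + 31 * z ^ 9 - 13 * z ^ 10 + 29 * z ^ 11) (-262143 - 4096 * z - 64 * z ^ 2 - z ^ 3) (-212369) ?_ ?_ ?_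
  · rw [hmap]; exact monic_X_sub_C _
  · rw [hmap]; exact irreducible_X_sub_C _
  · rw [hmap, dvd_iff_isRoot, IsRoot.def, cyclotomic_prime, eval_finsetSum]
    simp only [eval_pow, eval_X, Int.cast_ofNat]
    exact pid13_root_seventyNine
  · push_cast
    linear_combination (-55 + 54 * z - 51 * z ^ 2 + 35 * z ^ 3) * hΦ
  · rw [hQ]
    linear_combination (45 - 44 * z + 42 * z ^ 2 - 29 * z ^ 3) * hΦ
  · rw [hQ]
    push_cast
    ring

theorem pid13_root_oneThirtyOne : ∑ x ∈ Finset.range 13, (80 : ZMod 131) ^ x = 0 := by decide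

theorem pid13_principal_oneThirtyOne (K : Type) [Field K] [NumberField K]
    [IsCyclotomicExtension {13} ℚ K] :
    ∃ P ∈ primesOver (span {((131 : ℕ) : ℤ)}) (𝓞 K), Submodule.IsPrincipal P := by
  have : Fact (Nat.Prime 131) := ⟨by norm_num⟩
  have : Fact (Nat.Prime 13) := ⟨by norm_num⟩
  have hζ := IsCyclotomicExtension.zeta_spec 13 ℚ K
  have hΦ := pid13_sum_zeta hζ
  set z : 𝓞 K := hζ.toInteger with hz
  have hmap : (X - C (80 : ℤ) : ℤ[X]).map (Int.castRingHom (ZMod 131)) =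
      X - C ((80 : ℤ) : ZMod 131) := by
    rw [Polynomial.map_sub, Polynomial.map_X, Polynomial.map_C, eq_intCast]
  have hQ : aeval hζ.toInteger (X - C (80 : ℤ) : ℤ[X]) = z - 80 := by
    rw [map_sub, aeval_X, aeval_C, algebraMap_int_eq, eq_intCast, Int.cast_ofNat]
  refine pid13_exists_isPrincipal_primesOver hζ 131 (X - C (80 : ℤ)) ?_ ?_ ?_
    (1 - z - z ^ 3) (111 + 78 * z + 17 * z ^ 2 + 67 * z ^ 3 + 84 * z ^ 4 + 40 * z ^ 5 + 46 * z ^ 6 + 69 * z ^ 7 + 48 * z ^ 8 + 33 * z ^ 9 + 41 * z ^ 10 + 28 * z ^ 11)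
    (-68 - 47 * z - 10 * z ^ 2 - 41 * z ^ 3 - 51 * z ^ 4 - 24 * z ^ 5 - 28 * z ^ 6 - 42 * z ^ 7 - 29 * z ^ 8 - 20 * z ^ 9 - 25 * z ^ 10 - 17 * z ^ 11) (-6401 - 80 * z - z ^ 2) (-3909) ?_ ?_ ?_
  · rw [hmap]; exact monic_X_sub_C _
  · rw [hmap]; exact irreducible_X_sub_C _
  · rw [hmap, dvd_iff_isRoot, IsRoot.def, cyclotomic_prime, eval_finsetSum]
    simp only [eval_pow, eval_X, Int.cast_ofNat]
    exact pid13_root_oneThirtyOne
  · push_cast
    linear_combination (-20 - 13 * z - 28 * z ^ 2) * hΦ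
  · rw [hQ]
    linear_combination (12 + 8 * z + 17 * z ^ 2) * hΦ
  · rw [hQ]
    push_cast
    ring

theorem pid13_root_oneFiftySeven : ∑ x ∈ Finset.range 13, (75 : ZMod 157) ^ x = 0 := by decide

theorem pid13_principal_oneFiftySeven (K : Type) [Field K] [NumberField K]
    [IsCyclotomicExtension {13} ℚ K] :
    ∃ P ∈ primesOver (span {((157 : ℕ) : ℤ)}) (𝓞 K), Submodule.IsPrincipal P := by
  have : Fact (Nat.Prime 157) := ⟨by norm_num⟩
  have : Fact (Nat.Prime 13) := ⟨by norm_num⟩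
  have hζ := IsCyclotomicExtension.zeta_spec 13 ℚ K
  have hΦ := pid13_sum_zeta hζ
  set z : 𝓞 K := hζ.toInteger with hz
  have hmap : (X - C (75 : ℤ) : ℤ[X]).map (Int.castRingHom (ZMod 157)) =
      X - C ((75 : ℤ) : ZMod 157) := by
    rw [Polynomial.map_sub, Polynomial.map_X, Polynomial.map_C, eq_intCast]
  have hQ : aeval hζ.toInteger (X - C (75 : ℤ) : ℤ[X]) = z - 75 := by
    rw [map_sub, aeval_X, aeval_C, algebraMap_int_eq, eq_intCast, Int.cast_ofNat]
  refine pid13_exists_isPrincipal_primesOver hζ 157 (X - C (75 : ℤ)) ?_ ?_ ?_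
    (1 - z + z ^ 2 + z ^ 4) (89 + 86 * z + 42 * z ^ 2 + 77 * z ^ 3 + 67 * z ^ 4 + 25 * z ^ 5 + 37 * z ^ 6 + 56 * z ^ 7 + 73 * z ^ 8 + 113 * z ^ 9 + 124 * z ^ 10 + 76 * z ^ 11)
    (-43 - 41 * z - 20 * z ^ 2 - 37 * z ^ 3 - 32 * z ^ 4 - 12 * z ^ 5 - 18 * z ^ 6 - 27 * z ^ 7 - 35 * z ^ 8 - 54 * z ^ 9 - 59 * z ^ 10 - 36 * z ^ 11) (421949 + 5626 * z + 75 * z ^ 2 + z ^ 3) (201568) ?_ ?_ ?_
  · rw [hmap]; exact monic_X_sub_C _
  · rw [hmap]; exact irreducible_X_sub_C _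
  · rw [hmap, dvd_iff_isRoot, IsRoot.def, cyclotomic_prime, eval_finsetSum]
    simp only [eval_pow, eval_X, Int.cast_ofNat]
    exact pid13_root_oneFiftySeven
  · push_cast
    linear_combination (-68 + 65 * z + 48 * z ^ 2 + 76 * z ^ 3) * hΦ
  · rw [hQ]
    linear_combination (32 - 31 * z - 23 * z ^ 2 - 36 * z ^ 3) * hΦ
  · rw [hQ]
    push_cast
    ring

theorem pid13_noroot_three : ∀ x : ZMod 3, x ^ 3 - (x + 1) ≠ 0 := by decide

theorem pid13_principal_three (K : Type) [Field K] [NumberField K]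
    [IsCyclotomicExtension {13} ℚ K] :
    ∃ P ∈ primesOver (span {((3 : ℕ) : ℤ)}) (𝓞 K), Submodule.IsPrincipal P := by
  have : Fact (Nat.Prime 3) := ⟨by norm_num⟩
  have : Fact (Nat.Prime 13) := ⟨by norm_num⟩
  have hζ := IsCyclotomicExtension.zeta_spec 13 ℚ K
  have hΦ := pid13_sum_zeta hζ
  set z : 𝓞 K := hζ.toInteger with hz
  have hmap : (X ^ 3 - X - 1 : ℤ[X]).map (Int.castRingHom (ZMod 3)) = X ^ 3 - (X + 1) := by
    rw [Polynomial.map_sub, Polynomial.map_sub, Polynomial.map_pow, Polynomial.map_X,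
      Polynomial.map_one, sub_sub]
  have hQ : aeval hζ.toInteger (X ^ 3 - X - 1 : ℤ[X]) = z ^ 3 - z - 1 := by
    rw [map_sub, map_sub, map_pow, aeval_X, map_one]
  have h3 : (3 : (ZMod 3)[X]) = 0 := by
    exact_mod_cast CharP.cast_eq_zero (ZMod 3)[X] 3
  refine pid13_exists_isPrincipal_primesOver hζ 3 (X ^ 3 - X - 1) ?_ ?_ ?_
    (1 + z - z ^ 3) (-1 - z ^ 2 - z ^ 3 - 2 * z ^ 5 - z ^ 7 - 2 * z ^ 8 + z ^ 9 - 3 * z ^ 10)
    (-1) (-1) 0 ?_ ?_ ?_
  · rw [hmap]
    exact monic_X_pow_sub (by compute_degree!)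
  · rw [hmap]
    refine irreducible_of_degree_le_three_of_not_isRoot ?_ ?_
    · have : (X ^ 3 - (X + 1) : (ZMod 3)[X]).natDegree = 3 := by compute_degree!
      rw [this]; decide
    · intro x
      rw [IsRoot.def, eval_sub, eval_pow, eval_X, eval_add, eval_X, eval_one]
      exact pid13_noroot_three x
  · rw [hmap, cyclotomic_prime]
    refine ⟨20 + 15 * X + 11 * X ^ 2 + 8 * X ^ 3 + 6 * X ^ 4 + 4 * X ^ 5 + 3 * X ^ 6 + 2 * X ^ 7
      + X ^ 8 + X ^ 9, ?_⟩
    simp only [Finset.sum_range_succ, Finset.sum_range_zero]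
    linear_combination (7 + 12 * X + 9 * X ^ 2) * h3
  · push_cast
    linear_combination (-4 + 3 * z) * hΦ
  · rw [hQ]
    ring
  · rw [hQ]
    push_cast
    ring

/-- The ring of integers of `ℚ(ζ₁₃)` is a principal ideal domain. -/
theorem pid_thirteen (K : Type) [Field K] [NumberField K] [IsCyclotomicExtension {13} ℚ K] :
    IsPrincipalIdealRing (𝓞 K) := by
  refine pid_thirteen_of_principal K ?_
  rintro q (rfl | rfl | rfl | rfl | rfl)
  · exact pid13_principal_three K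
  · exact pid13_principal_fiftyThree K
  · exact pid13_principal_seventyNine K
  · exact pid13_principal_oneThirtyOne K
  · exact pid13_principal_oneFiftySeven K

end Data

end Fermat.Agent.Kummer
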