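import Mathlib

/-!
# Project KUMMER: `ℤ[ζ₇]` is a principal ideal domain

Minkowski bound `< 5`; the primes `2` and `3` have `q ^ f > 4` where `f` is the order of `q`
modulo `7`.
-/

set_option autoImplicit false

namespace Fermat.Agent.Kummer

open NumberField Polynomial InfinitePlace Nat Real IsCyclotomicExtension.Rat Module Ideal

theorem minkowski_seven (K : Type) [Field K] [NumberField K] [IsCyclotomicExtension {7} ℚ K] :
    ⌊(4 / π) ^ nrComplexPlaces K *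
      ((finrank ℚ K)! / (finrank ℚ K) ^ (finrank ℚ K) * √|(discr K : ℝ)|)⌋₊ ≤ 4 := by
  have : Fact (Nat.Prime 7) := ⟨by norm_num⟩
  rw [discr_prime 7 K, IsCyclotomicExtension.finrank (n := 7) K
    (cyclotomic.irreducible_rat (by simp)), nrComplexPlaces_eq_totient_div_two 7,
    totient_prime (by norm_num : Nat.Prime 7)]
  have h1 : ((7 - 1) / 2 : ℕ) = 3 := by norm_num
  have h2 : ((7 - 1 : ℕ)! : ℝ) = 720 := by
    have : (7 - 1 : ℕ)! = 720 := by decide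
    rw [this]; norm_num
  have h3 : √|(((-1) ^ ((7 - 1) / 2) * ((7 : ℕ) : ℤ) ^ (7 - 2) : ℤ) : ℝ)| ≤ 130 := by
    rw [Real.sqrt_le_left (by norm_num)]
    norm_num
  have h4 : (4 / π) ^ 3 ≤ (4 / 3.14) ^ 3 := by
    gcongr
    exact pi_gt_d2.le
  rw [h1, h2]
  have hx : (4 / π) ^ 3 * ((720 : ℝ) / ((7 - 1 : ℕ) : ℝ) ^ (7 - 1) *
      √|(((-1) ^ 3 * ((7 : ℕ) : ℤ) ^ (7 - 2) : ℤ) : ℝ)|) < 5 := by
    have h3' : √|(((-1) ^ 3 * ((7 : ℕ) : ℤ) ^ (7 - 2) : ℤ) : ℝ)| ≤ 130 := h3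
    calc (4 / π) ^ 3 * ((720 : ℝ) / ((7 - 1 : ℕ) : ℝ) ^ (7 - 1) *
          √|(((-1) ^ 3 * ((7 : ℕ) : ℤ) ^ (7 - 2) : ℤ) : ℝ)|)
        ≤ (4 / 3.14) ^ 3 * ((720 : ℝ) / ((7 - 1 : ℕ) : ℝ) ^ (7 - 1) * 130) := by
          gcongr
      _ < 5 := by norm_num
  exact Nat.lt_succ_iff.mp ((Nat.floor_lt (by positivity)).mpr (by exact_mod_cast hx))

/-- For a prime `q ≤ 4`, any power `q ^ f ≡ 1 mod 7` with `f > 0` exceeds `4`. -/
theorem pow_order_seven_gt (q : ℕ) (hq : q.Prime) (hq4 : q ≤ 4)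
    (f : ℕ) (hf : 0 < f) (h : ((q : ZMod 7)) ^ f = 1) : 4 < q ^ f := by
  by_contra hlt
  rw [not_lt] at hlt
  have hf3 : f < 3 := by
    by_contra h3
    rw [not_lt] at h3
    have : 2 ^ 3 ≤ q ^ f :=
      (Nat.pow_le_pow_left hq.two_le 3).trans (Nat.pow_le_pow_right hq.pos h3)
    omega
  interval_cases f <;> interval_cases q <;>
    first
    | omega
    | (exfalso; revert hq; norm_num; done)
    | (exfalso; revert h; decide)

theorem pid_seven (K : Type) [Field K] [NumberField K] [IsCyclotomicExtension {7} ℚ K] :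
    IsPrincipalIdealRing (𝓞 K) := by
  have : Fact (Nat.Prime 7) := ⟨by norm_num⟩
  have : IsGalois ℚ K := IsCyclotomicExtension.isGalois {7} ℚ K
  have hM := minkowski_seven K
  refine RingOfIntegers.isPrincipalIdealRing_of_isPrincipal_of_lt_or_isPrincipal_of_mem_primesOver_of_mem_Icc
    (fun q hq hqp ↦ ?_)
  have hq4 : q ≤ 4 := (Finset.mem_Icc.mp hq).2.trans hM
  have h7 : q ≠ 7 := by omega
  have : Fact q.Prime := ⟨hqp⟩
  obtain ⟨⟨P, hP1, hP2⟩⟩ := (span {(q : ℤ)}).nonempty_primesOver (S := 𝓞 K)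
  refine ⟨P, ⟨hP1, hP2⟩, Or.inl ?_⟩
  have hnd : ¬ q ∣ 7 := by
    intro hd
    exact h7 ((Nat.prime_dvd_prime_iff_eq hqp (by norm_num)).mp hd)
  rw [inertiaDeg_eq_of_not_dvd q K P hnd]
  refine lt_of_le_of_lt hM (pow_order_seven_gt q hqp hq4 _ ?_ (pow_orderOf_eq_one _))
  refine orderOf_pos_iff.mpr ?_
  exact isOfFinOrder_iff_pow_eq_one.mpr ⟨6, by norm_num, by
    have hu : IsUnit ((q : ZMod 7)) := by
      rw [ZMod.isUnit_iff_coprime]
      exact (Nat.coprime_primes hqp (by norm_num)).mpr h7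
    have := ZMod.pow_card_sub_one_eq_one (p := 7) (a := (q : ZMod 7)) hu.ne_zero
    simpa using this⟩

end Fermat.Agent.Kummer
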