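import Mathlib

set_option autoImplicit false

/-!
# Sophie Germain's theorem and the first case of Fermat's Last Theorem for `p = 5, 7, 11, 13`
-/

namespace Fermat.Agent.Kummer

open Finset

/-- `sgPhi p u v = (u ^ p + v ^ p) / (u + v)` for odd `p`. -/
def sgPhi (p : ℕ) {R : Type*} [CommRing R] (u v : R) : R :=
  ∑ i ∈ range p, u ^ i * (-v) ^ (p - 1 - i)

theorem sgPhi_mul {p : ℕ} (hp : Odd p) {R : Type*} [CommRing R] (u v : R) :
    sgPhi p u v * (u + v) = u ^ p + v ^ p := by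
  have h := (Commute.all u (-v)).geom_sum₂_mul p
  rw [sub_neg_eq_add, hp.neg_pow, sub_neg_eq_add] at h
  exact h

theorem sgPhi_map {p : ℕ} {R S : Type*} [CommRing R] [CommRing S] (f : R →+* S) (u v : R) :
    f (sgPhi p u v) = sgPhi p (f u) (f v) := by
  simp [sgPhi, map_sum, map_mul, map_pow, map_neg]

theorem sgPhi_of_add_eq_zero {p : ℕ} (hp : 0 < p) {R : Type*} [CommRing R] (u v : R)
    (h : u + v = 0) : sgPhi p u v = p * u ^ (p - 1) := by
  have hv : -v = u := by rw [neg_eq_iff_add_eq_zero, add_comm]; exact h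
  unfold sgPhi
  rw [hv]
  have : ∀ i ∈ range p, u ^ i * u ^ (p - 1 - i) = u ^ (p - 1) := by
    intro i hi
    rw [← pow_add]
    congr 1
    have := mem_range.mp hi
    omega
  rw [sum_congr rfl this, sum_const, card_range, nsmul_eq_mul]

theorem sgPhi_zero_left {p : ℕ} (hp : Odd p) {R : Type*} [CommRing R] (v : R) :
    sgPhi p 0 v = v ^ (p - 1) := by
  unfold sgPhi
  have hp0 : 0 < p := hp.pos
  rw [sum_eq_single_of_mem 0 (mem_range.mpr hp0)]
  · have he : Even (p - 1) := by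
      rcases hp with ⟨k, rfl⟩
      exact ⟨k, by omega⟩
    simp [he.neg_pow]
  · intro i _ hi
    simp [hi]

/-- the two factors of `u ^ p + v ^ p` are coprime if `p ∤ u + v` -/
theorem sg_coprime {p : ℕ} (hp : p.Prime) {u v : ℤ} (huv : IsCoprime u v)
    (hpuv : ¬ (p : ℤ) ∣ u + v) : IsCoprime (u + v) (sgPhi p u v) := by
  rw [Int.isCoprime_iff_gcd_eq_one]
  by_contra hne
  obtain ⟨r, hr, hrd⟩ := Nat.exists_prime_and_dvd hne
  have h1 : (r : ℤ) ∣ u + v := (Int.natCast_dvd_natCast.mpr hrd).trans (Int.gcd_dvd_left _ _)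
  have h2 : (r : ℤ) ∣ sgPhi p u v := (Int.natCast_dvd_natCast.mpr hrd).trans (Int.gcd_dvd_right _ _)
  have : Fact r.Prime := ⟨hr⟩
  have e1 : ((u : ZMod r) + (v : ZMod r)) = 0 := by
    have := (ZMod.intCast_zmod_eq_zero_iff_dvd (u + v) r).mpr h1
    push_cast at this
    exact this
  have e2 : sgPhi p (u : ZMod r) (v : ZMod r) = 0 := by
    have := (ZMod.intCast_zmod_eq_zero_iff_dvd (sgPhi p u v) r).mpr h2
    rw [← this]
    exact (sgPhi_map (Int.castRingHom (ZMod r)) u v).symm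
  rw [sgPhi_of_add_eq_zero hp.pos _ _ e1] at e2
  rcases mul_eq_zero.mp e2 with h3 | h3
  · -- r = p
    have : (r : ℕ) ∣ p := (ZMod.natCast_eq_zero_iff p r).mp h3
    have hrp : r = p := (Nat.prime_dvd_prime_iff_eq hr hp).mp this
    exact hpuv (hrp ▸ h1)
  · have h4 : (u : ZMod r) = 0 := by
      exact pow_eq_zero_iff (n := p - 1) (by have := hp.two_le; omega) |>.mp h3
    have h5 : (r : ℤ) ∣ u := (ZMod.intCast_zmod_eq_zero_iff_dvd u r).mp h4
    have h6 : (r : ℤ) ∣ v := by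
      have := dvd_sub h1 h5
      simpa using this
    have h7 : IsUnit (r : ℤ) := huv.isUnit_of_dvd' h5 h6
    rw [Int.isUnit_iff_natAbs_eq, Int.natAbs_natCast] at h7
    exact hr.one_lt.ne' h7

/-- core of Sophie Germain's argument, in the case `θ ∣ x`. -/
theorem sg_core {p θ : ℕ} (hp : p.Prime) (hp2 : p ≠ 2) (hθ' : θ.Prime)
    (h1 : ∀ x y z : ZMod θ, x ^ p + y ^ p + z ^ p = 0 → x = 0 ∨ y = 0 ∨ z = 0)
    (h2 : ∀ w : ZMod θ, w ^ p ≠ (p : ZMod θ))
    {x y z : ℤ} (hxy : IsCoprime x y) (hxz : IsCoprime x z) (hyz : IsCoprime y z)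
    (h : x ^ p + y ^ p + z ^ p = 0) (hpx : ¬ (p : ℤ) ∣ x) (hpy : ¬ (p : ℤ) ∣ y)
    (hpz : ¬ (p : ℤ) ∣ z) (hθx : (θ : ℤ) ∣ x) : False := by
  have hθ : Fact θ.Prime := ⟨hθ'⟩
  have hodd : Odd p := hp.odd_of_ne_two hp2
  have hpp : Prime (p : ℤ) := Nat.prime_iff_prime_int.mp hp
  have hθp : Prime (θ : ℤ) := Nat.prime_iff_prime_int.mp hθ.out
  -- `p ∤ u + v` from `p ∤ w`
  have aux : ∀ u v w : ℤ, u ^ p + v ^ p + w ^ p = 0 → ¬ (p : ℤ) ∣ w → ¬ (p : ℤ) ∣ u + v := by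
    intro u v w huvw hw hd
    apply hw
    refine hpp.dvd_of_dvd_pow (n := p) ?_
    have e : w ^ p = -(sgPhi p u v * (u + v)) := by rw [sgPhi_mul hodd]; linarith
    rw [e]
    exact (dvd_neg).mpr (dvd_mul_of_dvd_right hd _)
  -- the three factorizations
  have fac : ∀ u v w : ℤ, IsCoprime u v → u ^ p + v ^ p + w ^ p = 0 → ¬ (p : ℤ) ∣ w →
      (∃ a : ℤ, u + v = a ^ p) ∧ ∃ α : ℤ, sgPhi p u v = α ^ p := by
    intro u v w huv huvw hw
    have hc := sg_coprime hp huv (aux u v w huvw hw)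
    have e : (u + v) * sgPhi p u v = (-w) ^ p := by
      rw [hodd.neg_pow, mul_comm, sgPhi_mul hodd]; linarith
    exact ⟨Int.eq_pow_of_mul_eq_pow_odd_left hc hodd e,
      Int.eq_pow_of_mul_eq_pow_odd_right hc hodd e⟩
  obtain ⟨⟨a, ha⟩, ⟨α, hα⟩⟩ := fac y z x hyz (by linarith) hpx
  obtain ⟨⟨b, hb⟩, -⟩ := fac z x y hxz.symm (by linarith) hpy
  obtain ⟨⟨c, hc⟩, ⟨γ, hγ⟩⟩ := fac x y z hxy h hpz
  -- reduce mod θ
  have cast0 : ∀ m : ℤ, ((m : ZMod θ) = 0) ↔ (θ : ℤ) ∣ m :=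
    fun m => ZMod.intCast_zmod_eq_zero_iff_dvd m θ
  have hx0 : (x : ZMod θ) = 0 := (cast0 x).mpr hθx
  have hy0 : (y : ZMod θ) ≠ 0 := by
    intro hy
    have := hxy.isUnit_of_dvd' hθx ((cast0 y).mp hy)
    exact hθp.not_isUnit this
  have hz0 : (z : ZMod θ) ≠ 0 := by
    intro hz
    have := hxz.isUnit_of_dvd' hθx ((cast0 z).mp hz)
    exact hθp.not_isUnit this
  have e2x : (c : ZMod θ) ^ p + (b : ZMod θ) ^ p + (-(a : ZMod θ)) ^ p = 0 := by
    have : c ^ p + b ^ p + (-a) ^ p = 2 * x := by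
      rw [hodd.neg_pow, ← ha, ← hb, ← hc]; ring
    have h3 := congrArg (Int.cast : ℤ → ZMod θ) this
    push_cast at h3
    rw [h3, hx0, mul_zero]
  rcases h1 _ _ _ e2x with hc0 | hb0 | ha0
  · -- θ ∣ c : x + y = c^p
    have h3 := congrArg (Int.cast : ℤ → ZMod θ) hc
    push_cast at h3
    rw [hc0, hx0, zero_add, zero_pow hp.ne_zero] at h3
    exact hy0 h3
  · have h3 := congrArg (Int.cast : ℤ → ZMod θ) hb
    push_cast at h3
    rw [hb0, hx0, add_zero, zero_pow hp.ne_zero] at h3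
    exact hz0 h3
  · have ha0' : (a : ZMod θ) = 0 := neg_eq_zero.mp ha0
    have hyz0 : (y : ZMod θ) + (z : ZMod θ) = 0 := by
      have h3 := congrArg (Int.cast : ℤ → ZMod θ) ha
      push_cast at h3
      rw [h3, ha0', zero_pow hp.ne_zero]
    have eα : (α : ZMod θ) ^ p = p * (y : ZMod θ) ^ (p - 1) := by
      have h3 := congrArg (Int.cast : ℤ → ZMod θ) hα
      rw [show ((sgPhi p y z : ℤ) : ZMod θ) = sgPhi p (y : ZMod θ) (z : ZMod θ) from
        sgPhi_map (Int.castRingHom (ZMod θ)) y z, sgPhi_of_add_eq_zero hp.pos _ _ hyz0] at h3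
      push_cast at h3
      exact h3.symm
    have eγ : (γ : ZMod θ) ^ p = (y : ZMod θ) ^ (p - 1) := by
      have h3 := congrArg (Int.cast : ℤ → ZMod θ) hγ
      rw [show ((sgPhi p x y : ℤ) : ZMod θ) = sgPhi p (x : ZMod θ) (y : ZMod θ) from
        sgPhi_map (Int.castRingHom (ZMod θ)) x y, hx0, sgPhi_zero_left hodd] at h3
      push_cast at h3
      exact h3.symm
    have hγ0 : (γ : ZMod θ) ≠ 0 := by
      intro h0
      rw [h0, zero_pow hp.ne_zero] at eγ
      exact hy0 (pow_eq_zero_iff (n := p - 1) (by have := hp.two_le; omega) |>.mp eγ.symm)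
    apply h2 ((α : ZMod θ) * (γ : ZMod θ)⁻¹)
    rw [mul_pow, inv_pow, eα, eγ, mul_assoc, mul_inv_cancel₀ (eγ ▸ pow_ne_zero p hγ0), mul_one]

/-- **Sophie Germain's theorem.** -/
theorem sophie_germain {p θ : ℕ} (hp : p.Prime) (hp2 : p ≠ 2) (hθ : θ.Prime)
    (h1 : ∀ x y z : ZMod θ, x ^ p + y ^ p + z ^ p = 0 → x = 0 ∨ y = 0 ∨ z = 0)
    (h2 : ∀ w : ZMod θ, w ^ p ≠ (p : ZMod θ))
    {x y z : ℤ} (hxy : IsCoprime x y) (hxz : IsCoprime x z) (hyz : IsCoprime y z)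
    (h : x ^ p + y ^ p + z ^ p = 0) : (p : ℤ) ∣ x * y * z := by
  by_contra hnd
  have hpp : Prime (p : ℤ) := Nat.prime_iff_prime_int.mp hp
  have hpx : ¬ (p : ℤ) ∣ x := fun hd => hnd (dvd_mul_of_dvd_left (dvd_mul_of_dvd_left hd _) _)
  have hpy : ¬ (p : ℤ) ∣ y := fun hd => hnd (dvd_mul_of_dvd_left (dvd_mul_of_dvd_right hd _) _)
  have hpz : ¬ (p : ℤ) ∣ z := fun hd => hnd (dvd_mul_of_dvd_right hd _)
  have hmod : (x : ZMod θ) ^ p + (y : ZMod θ) ^ p + (z : ZMod θ) ^ p = 0 := by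
    have h3 := congrArg (Int.cast : ℤ → ZMod θ) h
    push_cast at h3
    exact h3
  have cast0 : ∀ m : ℤ, ((m : ZMod θ) = 0) ↔ (θ : ℤ) ∣ m :=
    fun m => ZMod.intCast_zmod_eq_zero_iff_dvd m θ
  rcases h1 _ _ _ hmod with hx | hy | hz
  · exact sg_core hp hp2 hθ h1 h2 hxy hxz hyz h hpx hpy hpz ((cast0 x).mp hx)
  · exact sg_core hp hp2 hθ h1 h2 hyz hxy.symm hxz.symm (by linarith) hpy hpz hpx ((cast0 y).mp hy)
  · exact sg_core hp hp2 hθ h1 h2 hxz.symm hyz.symm hxy (by linarith) hpz hpx hpy ((cast0 z).mp hz)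

/-- first case, integer form `a ^ p + b ^ p = c ^ p` -/
theorem caseI_of_sophie {p θ : ℕ} (hp : p.Prime) (hp2 : p ≠ 2) (hθ : θ.Prime)
    (h1 : ∀ x y z : ZMod θ, x ^ p + y ^ p + z ^ p = 0 → x = 0 ∨ y = 0 ∨ z = 0)
    (h2 : ∀ w : ZMod θ, w ^ p ≠ (p : ZMod θ))
    (a b c : ℤ) (hab : IsCoprime a b) (h : a ^ p + b ^ p = c ^ p) : (p : ℤ) ∣ a * b * c := by
  have hodd : Odd p := hp.odd_of_ne_two hp2
  have hp0 : p ≠ 0 := hp.ne_zero
  have h' : a ^ p + b ^ p + (-c) ^ p = 0 := by rw [hodd.neg_pow, h]; ring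
  -- pairwise coprimality
  have hac : IsCoprime a c := by
    have : IsCoprime (a ^ p) (c ^ p) := by
      rw [← h]
      have h0 := (IsCoprime.pow (m := p) (n := p) hab).add_mul_left_right 1
      rwa [mul_one, add_comm] at h0
    exact (IsCoprime.pow_iff (Nat.pos_of_ne_zero hp0) (Nat.pos_of_ne_zero hp0)).mp this
  have hbc : IsCoprime b c := by
    have : IsCoprime (b ^ p) (c ^ p) := by
      rw [← h]
      have h0 := (IsCoprime.pow (m := p) (n := p) hab.symm).add_mul_left_right 1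
      rwa [mul_one] at h0
    exact (IsCoprime.pow_iff (Nat.pos_of_ne_zero hp0) (Nat.pos_of_ne_zero hp0)).mp this
  have := sophie_germain hp hp2 hθ h1 h2 hab hac.neg_right hbc.neg_right h'
  simpa using this

/-! ### the four instances -/

theorem sg_pow_five : ∀ x : ZMod 11, x ≠ 0 → x ^ 5 = 1 ∨ x ^ 5 = -1 := by decide

theorem caseI_five (a b c : ℤ) (hab : IsCoprime a b) (h : a ^ 5 + b ^ 5 = c ^ 5) :
    (5 : ℤ) ∣ a * b * c := by
  refine caseI_of_sophie (p := 5) (θ := 11) (by norm_num) (by norm_num) (by norm_num)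
    ?_ ?_ a b c hab h
  · intro x y z hxyz
    by_contra hne
    simp only [not_or] at hne
    obtain ⟨hx, hy, hz⟩ := hne
    rcases sg_pow_five x hx with h1 | h1 <;> rcases sg_pow_five y hy with h2 | h2 <;>
      rcases sg_pow_five z hz with h3 | h3 <;>
      (rw [h1, h2, h3] at hxyz; revert hxyz; decide)
  · intro w hw
    by_cases hw0 : w = 0
    · rw [hw0] at hw; revert hw; decide
    · rcases sg_pow_five w hw0 with h1 | h1 <;> (rw [h1] at hw; revert hw; decide)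

theorem sg_pow_seven : ∀ x : ZMod 29, x ≠ 0 → x ^ 7 = 1 ∨ x ^ 7 = -1 ∨ x ^ 7 = 12 ∨ x ^ 7 = -12 := by decide

theorem caseI_seven (a b c : ℤ) (hab : IsCoprime a b) (h : a ^ 7 + b ^ 7 = c ^ 7) :
    (7 : ℤ) ∣ a * b * c := by
  refine caseI_of_sophie (p := 7) (θ := 29) (by norm_num) (by norm_num) (by norm_num)
    ?_ ?_ a b c hab h
  · intro x y z hxyz
    by_contra hne
    simp only [not_or] at hne
    obtain ⟨hx, hy, hz⟩ := hne
    rcases sg_pow_seven x hx with h1 | h1 | h1 | h1 <;> rcases sg_pow_seven y hy with h2 | h2 | h2 | h2 <;>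
      rcases sg_pow_seven z hz with h3 | h3 | h3 | h3 <;>
      (rw [h1, h2, h3] at hxyz; revert hxyz; decide)
  · intro w hw
    by_cases hw0 : w = 0
    · rw [hw0] at hw; revert hw; decide
    · rcases sg_pow_seven w hw0 with h1 | h1 | h1 | h1 <;> (rw [h1] at hw; revert hw; decide)

theorem sg_pow_eleven : ∀ x : ZMod 23, x ≠ 0 → x ^ 11 = 1 ∨ x ^ 11 = -1 := by decide

theorem caseI_eleven (a b c : ℤ) (hab : IsCoprime a b) (h : a ^ 11 + b ^ 11 = c ^ 11) :
    (11 : ℤ) ∣ a * b * c := by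
  refine caseI_of_sophie (p := 11) (θ := 23) (by norm_num) (by norm_num) (by norm_num)
    ?_ ?_ a b c hab h
  · intro x y z hxyz
    by_contra hne
    simp only [not_or] at hne
    obtain ⟨hx, hy, hz⟩ := hne
    rcases sg_pow_eleven x hx with h1 | h1 <;> rcases sg_pow_eleven y hy with h2 | h2 <;>
      rcases sg_pow_eleven z hz with h3 | h3 <;>
      (rw [h1, h2, h3] at hxyz; revert hxyz; decide)
  · intro w hw
    by_cases hw0 : w = 0
    · rw [hw0] at hw; revert hw; decide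
    · rcases sg_pow_eleven w hw0 with h1 | h1 <;> (rw [h1] at hw; revert hw; decide)

theorem sg_pow_thirteen : ∀ x : ZMod 53, x ≠ 0 → x ^ 13 = 1 ∨ x ^ 13 = -1 ∨ x ^ 13 = 23 ∨ x ^ 13 = -23 := by decide

theorem caseI_thirteen (a b c : ℤ) (hab : IsCoprime a b) (h : a ^ 13 + b ^ 13 = c ^ 13) :
    (13 : ℤ) ∣ a * b * c := by
  refine caseI_of_sophie (p := 13) (θ := 53) (by norm_num) (by norm_num) (by norm_num)
    ?_ ?_ a b c hab h
  · intro x y z hxyz
    by_contra hne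
    simp only [not_or] at hne
    obtain ⟨hx, hy, hz⟩ := hne
    rcases sg_pow_thirteen x hx with h1 | h1 | h1 | h1 <;> rcases sg_pow_thirteen y hy with h2 | h2 | h2 | h2 <;>
      rcases sg_pow_thirteen z hz with h3 | h3 | h3 | h3 <;>
      (rw [h1, h2, h3] at hxyz; revert hxyz; decide)
  · intro w hw
    by_cases hw0 : w = 0
    · rw [hw0] at hw; revert hw; decide
    · rcases sg_pow_thirteen w hw0 with h1 | h1 | h1 | h1 <;> (rw [h1] at hw; revert hw; decide)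

end Fermat.Agent.Kummer
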