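import Mathlib
import Fermat.Agent.Kummer.Defs
import Fermat.Agent.Kummer.SG
import Fermat.Agent.Kummer.CaseII
import Fermat.Agent.Kummer.PID13
import Fermat.Agent.Kummer.PID11
import Fermat.Agent.Kummer.PID7
import Fermat.Agent.Kummer.KL5
import Fermat.Agent.Kummer.KL7
import Fermat.Agent.Kummer.KL11
import Fermat.Agent.Kummer.KL13
import Fermat.Prelude.Def_FLTPrelim_FreyPackage

set_option autoImplicit false

/-! Final assembly: Fermat's Last Theorem for the exponents 5, 7, 11, 13 (Kummer), and the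
non-existence of Frey packages with these exponents. -/

namespace Fermat.Agent.Kummer

open NumberField

/-- pairwise coprimality of a primitive solution -/
theorem pairwise_coprime_of_gcd {a b c : ℤ} {p : ℕ} (hp : p ≠ 0) (ha : a ≠ 0) (hb : b ≠ 0)
    (hg : ({a, b, c} : Finset ℤ).gcd id = 1) (h : a ^ p + b ^ p = c ^ p) :
    IsCoprime a b ∧ IsCoprime a c ∧ IsCoprime b c := by
  have key : ∀ q : ℤ, Prime q → q ∣ a → q ∣ b → q ∣ c → False := by
    intro q hq h1 h2 h3
    apply hq.not_dvd_one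
    rw [← hg]
    refine Finset.dvd_gcd_iff.mpr fun x hx ↦ ?_
    simp only [Finset.mem_insert, Finset.mem_singleton] at hx
    rcases hx with hx | hx | hx <;> simp only [id_eq, hx, h1, h2, h3]
  refine ⟨?_, ?_, ?_⟩
  · refine isCoprime_of_prime_dvd (fun h0 => ha h0.1) fun q hq h1 h2 => key q hq h1 h2 ?_
    exact hq.dvd_of_dvd_pow (n := p) (h ▸ dvd_add (dvd_pow h1 hp) (dvd_pow h2 hp))
  · refine isCoprime_of_prime_dvd (fun h0 => ha h0.1) fun q hq h1 h2 => key q hq h1 ?_ h2
    refine hq.dvd_of_dvd_pow (n := p) ?_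
    have : b ^ p = c ^ p - a ^ p := by rw [← h]; ring
    rw [this]
    exact dvd_sub (dvd_pow h2 hp) (dvd_pow h1 hp)
  · refine isCoprime_of_prime_dvd (fun h0 => hb h0.1) fun q hq h1 h2 => key q hq ?_ h1 h2
    refine hq.dvd_of_dvd_pow (n := p) ?_
    have : a ^ p = c ^ p - b ^ p := by rw [← h]; ring
    rw [this]
    exact dvd_sub (dvd_pow h2 hp) (dvd_pow h1 hp)

/-- generic assembly: case I + case II give Fermat's Last Theorem for the exponent `p`. -/
theorem flt_of (p : ℕ) [hp : Fact p.Prime] (hp5 : 5 ≤ p)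
    (hI : ∀ a b c : ℤ, IsCoprime a b → a ^ p + b ^ p = c ^ p → (p : ℤ) ∣ a * b * c)
    (hII : ∀ a b c : ℤ, IsCoprime a b → c ≠ 0 → (p : ℤ) ∣ c → a ^ p + b ^ p = c ^ p → False) :
    FermatLastTheoremFor p := by
  have hodd : Odd p := hp.out.odd_of_ne_two (by omega)
  have hp0 : p ≠ 0 := hp.out.ne_zero
  rw [fermatLastTheoremFor_iff_int]
  refine fermatLastTheoremWith_of_fermatLastTheoremWith_coprime ?_
  intro a b c ha hb hc hgcd habc
  obtain ⟨hab, hac, hbc⟩ := pairwise_coprime_of_gcd hp0 ha hb hgcd habc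
  have hpp : Prime (p : ℤ) := Nat.prime_iff_prime_int.mp hp.out
  have hdvd := hI a b c hab habc
  rcases hpp.dvd_or_dvd hdvd with h1 | h1
  · rcases hpp.dvd_or_dvd h1 with h2 | h2
    · -- p ∣ a : b^p + (-c)^p = (-a)^p
      exact hII b (-c) (-a) hbc.neg_right (neg_ne_zero.mpr ha) ((dvd_neg).mpr h2)
        (by rw [hodd.neg_pow, hodd.neg_pow, ← habc]; ring)
    · -- p ∣ b : a^p + (-c)^p = (-b)^p
      exact hII a (-c) (-b) hac.neg_right (neg_ne_zero.mpr hb) ((dvd_neg).mpr h2)
        (by rw [hodd.neg_pow, hodd.neg_pow, ← habc]; ring)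
  · exact hII a b c hab hc h1 habc

theorem flt_five : FermatLastTheoremFor 5 := by
  haveI : Fact (Nat.Prime 5) := ⟨by norm_num⟩
  haveI : NeZero ((5 : ℕ) : ℚ) := ⟨by norm_num⟩
  haveI : IsCyclotomicExtension {5} ℚ (CyclotomicField 5 ℚ) :=
    CyclotomicField.isCyclotomicExtension 5 ℚ
  haveI := IsCyclotomicExtension.Rat.five_pid (CyclotomicField 5 ℚ)
  exact flt_of 5 (by norm_num) caseI_five
    (fun a b c hab hc0 hpc h =>
      caseII 5 (by norm_num) (CyclotomicField 5 ℚ) (kummerLemma_five _) a b c hab hc0 hpc h)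

theorem flt_seven : FermatLastTheoremFor 7 := by
  haveI : Fact (Nat.Prime 7) := ⟨by norm_num⟩
  haveI : NeZero ((7 : ℕ) : ℚ) := ⟨by norm_num⟩
  haveI : IsCyclotomicExtension {7} ℚ (CyclotomicField 7 ℚ) :=
    CyclotomicField.isCyclotomicExtension 7 ℚ
  haveI := pid_seven (CyclotomicField 7 ℚ)
  exact flt_of 7 (by norm_num) caseI_seven
    (fun a b c hab hc0 hpc h =>
      caseII 7 (by norm_num) (CyclotomicField 7 ℚ) (kummerLemma_seven _) a b c hab hc0 hpc h)

theorem flt_eleven : FermatLastTheoremFor 11 := by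
  haveI : Fact (Nat.Prime 11) := ⟨by norm_num⟩
  haveI : NeZero ((11 : ℕ) : ℚ) := ⟨by norm_num⟩
  haveI : IsCyclotomicExtension {11} ℚ (CyclotomicField 11 ℚ) :=
    CyclotomicField.isCyclotomicExtension 11 ℚ
  haveI := pid_eleven (CyclotomicField 11 ℚ)
  exact flt_of 11 (by norm_num) caseI_eleven
    (fun a b c hab hc0 hpc h =>
      caseII 11 (by norm_num) (CyclotomicField 11 ℚ) (kummerLemma_eleven _) a b c hab hc0 hpc h)

theorem flt_thirteen : FermatLastTheoremFor 13 := by
  haveI : Fact (Nat.Prime 13) := ⟨by norm_num⟩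
  haveI : NeZero ((13 : ℕ) : ℚ) := ⟨by norm_num⟩
  haveI : IsCyclotomicExtension {13} ℚ (CyclotomicField 13 ℚ) :=
    CyclotomicField.isCyclotomicExtension 13 ℚ
  haveI := pid_thirteen (CyclotomicField 13 ℚ)
  exact flt_of 13 (by norm_num) caseI_thirteen
    (fun a b c hab hc0 hpc h =>
      caseII 13 (by norm_num) (CyclotomicField 13 ℚ) (kummerLemma_thirteen _) a b c hab hc0 hpc h)

/-- there is no Frey package with exponent `5`, `7`, `11` or `13`. -/
theorem no_frey (P : FreyPackage) (hp : P.p = 5 ∨ P.p = 7 ∨ P.p = 11 ∨ P.p = 13) : False := by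
  have key : ∀ n : ℕ, FermatLastTheoremFor n → P.p = n → False := by
    intro n hn hpn
    rw [fermatLastTheoremFor_iff_int] at hn
    exact hn P.a P.b P.c P.ha0 P.hb0 P.hc0 (hpn ▸ P.hFLT)
  rcases hp with h | h | h | h
  · exact key 5 flt_five h
  · exact key 7 flt_seven h
  · exact key 11 flt_eleven h
  · exact key 13 flt_thirteen h

end Fermat.Agent.Kummer
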